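/-
Base change of a pair of charts along a morphism of affine bases.
-/
import Fermat.Agent.Jacobian.Core.Cech

set_option autoImplicit false
set_option linter.unusedVariables false
set_option linter.style.haveILetI false

universe u

open CategoryTheory CategoryTheory.Limits AlgebraicGeometry TopologicalSpace Opposite Polynomial

noncomputable section

namespace Fermat.Agent.Jacobian

/-- The map on polynomial families induced by a ring map. -/
theorem bijective_polyBasis_of_isPushout {B A B' A' : Type u} [CommRing B] [CommRing A]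
    [CommRing B'] [CommRing A'] [Algebra B A] [Algebra B B'] [Algebra B A'] [Algebra A A']
    [Algebra B' A'] [IsScalarTower B A A'] [IsScalarTower B B' A'] [Algebra.IsPushout B B' A A']
    {n : ℕ} (x : A) (v : Fin n → A)
    (h : Function.Bijective fun q : Fin n → B[X] => ∑ i, (q i).eval₂ (algebraMap B A) x * v i) :
    Function.Bijective fun q : Fin n → B'[X] =>
      ∑ i, (q i).eval₂ (algebraMap B' A') (algebraMap A A' x) * algebraMap A A' (v i) := by
  let Ψ : (Fin n → B[X]) →ₗ[B] A :=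
    ∑ i, ((LinearMap.mulRight B (v i)).comp (Polynomial.aeval x).toLinearMap).comp (LinearMap.proj i)
  let Ψ' : (Fin n → B'[X]) →ₗ[B'] A' :=
    ∑ i, ((LinearMap.mulRight B' (algebraMap A A' (v i))).comp
      (Polynomial.aeval (algebraMap A A' x)).toLinearMap).comp (LinearMap.proj i)
  have hΨ : ∀ q : Fin n → B[X], Ψ q = ∑ i, (q i).eval₂ (algebraMap B A) x * v i := fun q => by
    simp [Ψ, Polynomial.aeval_def]
  have hΨ' : ∀ q : Fin n → B'[X], Ψ' q = ∑ i, (q i).eval₂ (algebraMap B' A') (algebraMap A A' x) *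
      algebraMap A A' (v i) := fun q => by
    simp [Ψ', Polynomial.aeval_def]
  have hfun : ⇑Ψ = fun q : Fin n → B[X] => ∑ i, (q i).eval₂ (algebraMap B A) x * v i := funext hΨ
  have hfun' : ⇑Ψ' = fun q : Fin n → B'[X] =>
      ∑ i, (q i).eval₂ (algebraMap B' A') (algebraMap A A' x) * algebraMap A A' (v i) := funext hΨ'
  rw [← hfun']
  rw [← hfun] at h
  letI : Algebra B[X] B'[X] := Polynomial.algebra B B'
  let f0 : B[X] →ₗ[B] B'[X] := (IsScalarTower.toAlgHom B B[X] B'[X]).toLinearMap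
  have hf0 : IsBaseChange B' f0 := Algebra.IsPushout.out
  let f : (Fin n → B[X]) →ₗ[B] (Fin n → B'[X]) := f0.compLeft (Fin n)
  have hf : IsBaseChange B' f := hf0.finitePow _
  let g : A →ₗ[B] A' := (IsScalarTower.toAlgHom B A A').toLinearMap
  have hg : IsBaseChange B' g := Algebra.IsPushout.out
  let e := LinearEquiv.ofBijective Ψ h
  have hge : IsBaseChange B' (g.comp e.toLinearMap) := IsBaseChange.comp_equiv e g hg
  have key : ∀ q : Fin n → B[X], Ψ' (f q) = g (Ψ q) := fun q => by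
    rw [hΨ, hΨ', map_sum]
    refine Finset.sum_congr rfl fun i _ => ?_
    show _ = algebraMap A A' (_ * _)
    rw [map_mul, Polynomial.hom_eval₂, ← IsScalarTower.algebraMap_eq]
    congr 1
    show Polynomial.eval₂ _ _ ((q i).map (algebraMap B B')) = _
    rw [Polynomial.eval₂_map, ← IsScalarTower.algebraMap_eq]
  have : ⇑Ψ' = hge.equiv ∘ hf.equiv.symm := by
    funext z
    obtain ⟨w, rfl⟩ := hf.equiv.surjective z
    rw [Function.comp_apply, LinearEquiv.symm_apply_apply]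
    induction w with
    | zero => simp
    | tmul s q => simp [IsBaseChange.equiv_tmul, key, e]
    | add a b ha hb => simp only [map_add, ha, hb]
  rw [this]
  exact hge.equiv.bijective.comp hf.equiv.symm.bijective

variable {X X' T T' : Scheme.{u}} {p : X ⟶ T} {p' : X' ⟶ T'} {q : X' ⟶ X} {b : T' ⟶ T}

/-- The functions on the inverse image of an affine open form the pushout. -/
theorem isPushout_preimage [IsAffine T] [IsAffine T'] (H : IsPullback q p' p b) {U : X.Opens}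
    (hU : IsAffineOpen U) :
    IsPushout (p.appLE ⊤ U fun _ _ => trivial) (b.appLE ⊤ ⊤ fun _ _ => trivial)
      (q.appLE U (q ⁻¹ᵁ U) le_rfl) (p'.appLE ⊤ (q ⁻¹ᵁ U) fun _ _ => trivial) := by
  have hUY : q ⁻¹ᵁ U = q ⁻¹ᵁ U ⊓ p' ⁻¹ᵁ ⊤ := (inf_eq_left.mpr fun _ _ => trivial).symm
  have := isIso_pushoutSection_of_isAffineOpen (US := ⊤) (UT := ⊤) (UX := U) H
    (fun _ _ => trivial) (fun _ _ => trivial) hUY (isAffineOpen_top _) (isAffineOpen_top _) hU
  exact (isIso_pushoutSection_iff (US := ⊤) (UT := ⊤) (UX := U) H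
    (fun _ _ => trivial) (fun _ _ => trivial) hUY).mp this

theorem isAffineOpen_preimage [IsAffine T] [IsAffine T'] (H : IsPullback q p' p b) {U : X.Opens}
    (hU : IsAffineOpen U) : IsAffineOpen (q ⁻¹ᵁ U) :=
  haveI : IsAffineHom b := isAffineHom_of_isAffine b
  haveI : IsAffineHom q := MorphismProperty.of_isPullback (P := @IsAffineHom.{u}) H.flip ‹_›
  hU.preimage _

/-- The functions on the base and on an open commute with inverse images. -/
theorem appLE_baseHom (H : IsPullback q p' p b) (U : X.Opens) (r : Γ(T, ⊤)) :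
    q.appLE U (q ⁻¹ᵁ U) le_rfl (baseHom p U r) =
      baseHom p' (q ⁻¹ᵁ U) (b.appLE ⊤ ⊤ (fun _ _ => trivial) r) := by
  refine (ConcreteCategory.comp_apply _ _ _).symm.trans (Eq.trans ?_
    (ConcreteCategory.comp_apply _ _ _))
  have key : ∀ {f g : Γ(T, ⊤) ⟶ Γ(X', q ⁻¹ᵁ U)}, f = g → f r = g r := fun h => by rw [h]
  refine key ((Scheme.Hom.appLE_comp_appLE _ _ _ _ _ _ _).trans (Eq.trans ?_
    (Scheme.Hom.appLE_comp_appLE _ _ _ _ _ _ _).symm))
  simp only [H.w]

theorem preimage_free [IsAffine T] [IsAffine T'] (H : IsPullback q p' p b) {U : X.Opens}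
    (hU : IsAffineOpen U) (x : Γ(X, U))
    (hfree : ∃ (n : ℕ) (v : Fin n → Γ(X, U)), Function.Bijective
      fun r : Fin n → Γ(T, ⊤)[X] => ∑ i, (r i).eval₂ (baseHom p U) x * v i) :
    ∃ (n : ℕ) (v : Fin n → Γ(X', q ⁻¹ᵁ U)), Function.Bijective
      fun r : Fin n → Γ(T', ⊤)[X] => ∑ i, (r i).eval₂ (baseHom p' (q ⁻¹ᵁ U))
        (q.appLE U (q ⁻¹ᵁ U) le_rfl x) * v i := by
  obtain ⟨n, v, hv⟩ := hfree
  letI : Algebra Γ(T, ⊤) Γ(X, U) := (baseHom p U).toAlgebra
  letI : Algebra Γ(T, ⊤) Γ(T', ⊤) := (b.appLE ⊤ ⊤ fun _ _ => trivial).hom.toAlgebra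
  letI : Algebra Γ(X, U) Γ(X', q ⁻¹ᵁ U) := (q.appLE U (q ⁻¹ᵁ U) le_rfl).hom.toAlgebra
  letI : Algebra Γ(T', ⊤) Γ(X', q ⁻¹ᵁ U) := (baseHom p' (q ⁻¹ᵁ U)).toAlgebra
  letI : Algebra Γ(T, ⊤) Γ(X', q ⁻¹ᵁ U) :=
    ((q.appLE U (q ⁻¹ᵁ U) le_rfl).hom.comp (baseHom p U)).toAlgebra
  haveI : IsScalarTower Γ(T, ⊤) Γ(X, U) Γ(X', q ⁻¹ᵁ U) := IsScalarTower.of_algebraMap_eq' rfl
  haveI : IsScalarTower Γ(T, ⊤) Γ(T', ⊤) Γ(X', q ⁻¹ᵁ U) :=
    IsScalarTower.of_algebraMap_eq fun r => appLE_baseHom H U r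
  haveI : Algebra.IsPushout Γ(T, ⊤) Γ(T', ⊤) Γ(X, U) Γ(X', q ⁻¹ᵁ U) :=
    CommRingCat.isPushout_iff_isPushout.mp (isPushout_preimage H hU).flip
  exact ⟨n, fun i => q.appLE U (q ⁻¹ᵁ U) le_rfl (v i),
    bijective_polyBasis_of_isPushout x v hv⟩

/-- Base change of a pair of charts. -/
@[reducible]
def TwoChart.baseChange [IsAffine T] [IsAffine T'] (M : TwoChart p) (H : IsPullback q p' p b) :
    TwoChart p' where
  U0 := q ⁻¹ᵁ M.U0
  U1 := q ⁻¹ᵁ M.U1
  isAffine0 := isAffineOpen_preimage H M.isAffine0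
  isAffine1 := isAffineOpen_preimage H M.isAffine1
  cover := by rw [← Scheme.Hom.preimage_sup, M.cover, Scheme.Hom.preimage_top]
  x := q.appLE M.U0 (q ⁻¹ᵁ M.U0) le_rfl M.x
  y := q.appLE M.U1 (q ⁻¹ᵁ M.U1) le_rfl M.y
  inter0 := by
    rw [← Scheme.Hom.preimage_inf, M.inter0, Scheme.preimage_basicOpen, Scheme.Hom.app_eq_appLE]
  inter1 := by
    rw [← Scheme.Hom.preimage_inf, M.inter1, Scheme.preimage_basicOpen, Scheme.Hom.app_eq_appLE]
  x_mul_y := by
    have h : q ⁻¹ᵁ M.U0 ⊓ q ⁻¹ᵁ M.U1 ≤ q ⁻¹ᵁ (M.U0 ⊓ M.U1) := le_rfl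
    have hres : ∀ {U : X.Opens} {V : X'.Opens} (e : V ≤ q ⁻¹ᵁ U) (h' : M.U0 ⊓ M.U1 ≤ U)
        (hV : q ⁻¹ᵁ M.U0 ⊓ q ⁻¹ᵁ M.U1 ≤ V) (a : Γ(X, U)),
        res hV (q.appLE U V e a) = q.appLE (M.U0 ⊓ M.U1) _ h (res h' a) := by
      intro U V e h' hV a
      show X'.presheaf.map _ (q.appLE U V e a) = q.appLE _ _ h (X.presheaf.map _ a)
      rw [← ConcreteCategory.comp_apply, Scheme.Hom.appLE_map, ← ConcreteCategory.comp_apply,
        Scheme.Hom.map_appLE]
    rw [hres le_rfl inf_le_left inf_le_left, hres le_rfl inf_le_right inf_le_right, ← map_mul,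
      M.x_mul_y, map_one]
  free0 := preimage_free H M.isAffine0 M.x M.free0
  free1 := preimage_free H M.isAffine1 M.y M.free1

end Fermat.Agent.Jacobian
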