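/-
Two term complexes of modules: base change of kernel and cokernel, Euler characteristic of the
fibres of a complex which becomes surjective after adding finitely many generators.
-/
import Mathlib

set_option autoImplicit false
set_option linter.unusedSectionVars false
set_option linter.style.haveILetI false

universe u

open TensorProduct

noncomputable section

namespace Fermat.Agent.Jacobian

variable {B B' : Type u} [CommRing B] [CommRing B'] [Algebra B B']
variable {P Q P' Q' : Type u} [AddCommGroup P] [Module B P] [AddCommGroup Q] [Module B Q]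
variable [AddCommGroup P'] [Module B P'] [Module B' P'] [IsScalarTower B B' P']
variable [AddCommGroup Q'] [Module B Q'] [Module B' Q'] [IsScalarTower B B' Q']
variable {d : P →ₗ[B] Q} {d' : P' →ₗ[B'] Q'} {f : P →ₗ[B] P'} {g : Q →ₗ[B] Q'}

section BaseChange

variable (comm : ∀ p, g (d p) = d' (f p))

/-- The map on kernels. -/
def kerMap : LinearMap.ker d →ₗ[B] LinearMap.ker d' :=
  (f.comp (LinearMap.ker d).subtype).codRestrict ((LinearMap.ker d').restrictScalars B)
    fun p => by
      show d' (f p.1) = 0
      rw [← comm, LinearMap.mem_ker.mp p.2, map_zero]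

theorem coe_kerMap (p : LinearMap.ker d) : (kerMap comm p : P') = f p.1 := rfl

/-- The map on cokernels. -/
def cokerMap : (Q ⧸ LinearMap.range d) →ₗ[B] Q' ⧸ LinearMap.range d' :=
  (LinearMap.range d).liftQ (((LinearMap.range d').mkQ.restrictScalars B).comp g) (by
    rintro _ ⟨p, rfl⟩
    show (LinearMap.range d').mkQ (g (d p)) = 0
    rw [comm]
    exact (Submodule.Quotient.mk_eq_zero _).mpr ⟨f p, rfl⟩)

theorem cokerMap_mk (q : Q) :
    cokerMap comm ((LinearMap.range d).mkQ q) = (LinearMap.range d').mkQ (g q) := rfl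

/-- Cokernels commute with base change. -/
theorem isBaseChange_cokerMap (hf : IsBaseChange B' f) (hg : IsBaseChange B' g) :
    IsBaseChange B' (cokerMap comm) :=
  IsBaseChange.of_right_exact B' f g (cokerMap comm) (f := d) (f' := d')
    (g := (LinearMap.range d).mkQ) (g' := (LinearMap.range d').mkQ)
    (LinearMap.ext comm) (LinearMap.ext fun _ => rfl) hf hg
    (LinearMap.exact_map_mkQ_range d) (Submodule.mkQ_surjective _)
    (LinearMap.exact_map_mkQ_range d') (Submodule.mkQ_surjective _)

include comm in
/-- A surjective complex stays surjective after base change. -/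
theorem surjective_of_isBaseChange (hg : IsBaseChange B' g) (hd : Function.Surjective d) :
    Function.Surjective d' := by
  intro q
  induction q using hg.inductionOn with
  | zero => exact ⟨0, map_zero _⟩
  | tmul q => obtain ⟨p, rfl⟩ := hd q; exact ⟨f p, (comm p).symm⟩
  | smul s q hq => obtain ⟨p, hp⟩ := hq; exact ⟨s • p, by rw [map_smul, hp]⟩
  | add q₁ q₂ h₁ h₂ =>
    obtain ⟨p₁, hp₁⟩ := h₁
    obtain ⟨p₂, hp₂⟩ := h₂
    exact ⟨p₁ + p₂, by rw [map_add, hp₁, hp₂]⟩

/-- The kernel of a surjection onto a projective module commutes with base change. -/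
theorem isBaseChange_kerMap [Module.Projective B Q] (hf : IsBaseChange B' f)
    (hg : IsBaseChange B' g) (hd : Function.Surjective d) : IsBaseChange B' (kerMap comm) := by
  obtain ⟨σ, hσ⟩ := Module.projective_lifting_property d LinearMap.id hd
  have hds : ∀ q, d (σ q) = q := fun q => LinearMap.congr_fun hσ q
  let π : P →ₗ[B] LinearMap.ker d :=
    (LinearMap.id - σ.comp d).codRestrict (LinearMap.ker d) fun p => by simp [hds]
  have hπ : ∀ p : LinearMap.ker d, π p.1 = p := fun p =>
    Subtype.ext (by simp [π, LinearMap.mem_ker.mp p.2])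
  let Φ : B' ⊗[B] LinearMap.ker d →ₗ[B'] P' :=
    hf.equiv.toLinearMap.comp ((LinearMap.ker d).subtype.baseChange B')
  have hΦ : ∀ (s : B') (p : LinearMap.ker d), Φ (s ⊗ₜ p) = s • f p.1 := fun s p => by
    simp [Φ, LinearMap.baseChange_tmul, IsBaseChange.equiv_tmul]
  have hinj : Function.Injective Φ := by
    refine hf.equiv.injective.comp (Function.LeftInverse.injective (g := π.baseChange B') ?_)
    intro z
    induction z with
    | zero => simp
    | tmul s p => simp [LinearMap.baseChange_tmul, hπ]
    | add a b ha hb => simp only [map_add, ha, hb]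
  have hmem : ∀ z, Φ z ∈ LinearMap.ker d' := fun z => by
    induction z with
    | zero => simp
    | tmul s p => rw [hΦ, LinearMap.mem_ker, map_smul, ← comm, LinearMap.mem_ker.mp p.2, map_zero,
        smul_zero]
    | add a b ha hb => rw [map_add]; exact add_mem ha hb
  refine IsBaseChange.of_equiv
    (LinearEquiv.ofBijective (Φ.codRestrict _ hmem)
      ⟨fun a b h => hinj (by simpa using congrArg Subtype.val h), ?_⟩) fun p => Subtype.ext ?_
  · rintro ⟨p', hp'⟩
    obtain ⟨z, rfl⟩ := hf.equiv.surjective p'
    have key : ∀ z : B' ⊗[B] P, d' (hf.equiv z) = hg.equiv (d.baseChange B' z) := fun z => by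
      induction z with
      | zero => simp
      | tmul s p => simp [IsBaseChange.equiv_tmul, LinearMap.baseChange_tmul, comm]
      | add a b ha hb => simp only [map_add, ha, hb]
    have hz : d.baseChange B' z = 0 := hg.equiv.injective (by
      rw [← key, LinearMap.mem_ker.mp hp', map_zero])
    refine ⟨π.baseChange B' z, Subtype.ext ?_⟩
    show hf.equiv ((LinearMap.ker d).subtype.baseChange B' (π.baseChange B' z)) = hf.equiv z
    have : ∀ z : B' ⊗[B] P, (LinearMap.ker d).subtype.baseChange B' (π.baseChange B' z) =
        z - σ.baseChange B' (d.baseChange B' z) := fun z => by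
      induction z with
      | zero => simp
      | tmul s p => simp [π, LinearMap.baseChange_tmul, tmul_sub]
      | add a b ha hb => simp only [map_add, ha, hb]; abel
    rw [this, hz, map_zero, sub_zero]
  · show Φ (1 ⊗ₜ p) = f p.1
    rw [hΦ, one_smul]

end BaseChange

section Field

variable {K : Type u} [Field K] {P Q : Type u} [AddCommGroup P] [Module K P] [AddCommGroup Q]
  [Module K Q] {m : ℕ}

/-- The Euler characteristic of a complex of vector spaces, computed after adding generators. -/
theorem finrank_ker_sub_finrank_coker (d : P →ₗ[K] Q) (v : (Fin m → K) →ₗ[K] Q)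
    (hsurj : Function.Surjective (d.coprod v))
    [Module.Finite K (LinearMap.ker (d.coprod v))] :
    Module.Finite K (LinearMap.ker d) ∧ Module.Finite K (Q ⧸ LinearMap.range d) ∧
      (Module.finrank K (LinearMap.ker d) : ℤ) - Module.finrank K (Q ⧸ LinearMap.range d) =
        Module.finrank K (LinearMap.ker (d.coprod v)) - m := by
  let pr : LinearMap.ker (d.coprod v) →ₗ[K] (Fin m → K) :=
    (LinearMap.snd K P (Fin m → K)).comp (LinearMap.ker (d.coprod v)).subtype
  let ψ : (Fin m → K) →ₗ[K] Q ⧸ LinearMap.range d := (LinearMap.range d).mkQ.comp v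
  have hψ : Function.Surjective ψ := fun z => by
    obtain ⟨q, rfl⟩ := Submodule.mkQ_surjective _ z
    obtain ⟨⟨p, w⟩, rfl⟩ := hsurj q
    exact ⟨w, (Submodule.Quotient.eq _).mpr ⟨-p, by simp⟩⟩
  let e : LinearMap.ker d →ₗ[K] LinearMap.ker pr :=
    { toFun := fun p => ⟨⟨(p.1, 0), by simp [LinearMap.mem_ker.mp p.2]⟩, rfl⟩
      map_add' := fun p q => by ext <;> simp
      map_smul' := fun r p => by ext <;> simp }
  have he : Function.Bijective e := by
    refine ⟨fun p q h => Subtype.ext (congrArg (fun z => z.1.1.1) h), ?_⟩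
    rintro ⟨⟨⟨p, w⟩, hp⟩, hw⟩
    obtain rfl : w = 0 := hw
    exact ⟨⟨p, by simpa using hp⟩, rfl⟩
  have hrange : LinearMap.range pr = LinearMap.ker ψ := by
    ext w
    constructor
    · rintro ⟨⟨⟨p, w'⟩, hp⟩, rfl⟩
      refine (Submodule.Quotient.mk_eq_zero _).mpr ⟨-p, ?_⟩
      rw [map_neg]
      exact neg_eq_of_add_eq_zero_right (show d p + v w' = 0 by simpa using hp)
    · intro hw
      obtain ⟨p, hp⟩ := (Submodule.Quotient.mk_eq_zero _).mp hw
      exact ⟨⟨(-p, w), by simp [hp]⟩, rfl⟩
  let ee := LinearEquiv.ofBijective e he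
  haveI : Module.Finite K (LinearMap.ker d) := Module.Finite.equiv ee.symm
  haveI : Module.Finite K (Q ⧸ LinearMap.range d) := Module.Finite.of_surjective ψ hψ
  refine ⟨inferInstance, inferInstance, ?_⟩
  have h1 := pr.finrank_range_add_finrank_ker
  have h2 := ψ.finrank_range_add_finrank_ker
  rw [LinearMap.range_eq_top.mpr hψ, finrank_top, Module.finrank_fin_fun] at h2
  rw [hrange, ← ee.finrank_eq] at h1
  omega

end Field

/-- A complex that becomes a surjection with finite projective kernel after adding finitely many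
generators of the target, the target being projective. -/
structure IsPerfect (d : P →ₗ[B] Q) : Prop where
  proj : Module.Projective B Q
  exists_gen : ∃ (m : ℕ) (v : (Fin m → B) →ₗ[B] Q), Function.Surjective (d.coprod v) ∧
    Module.Finite B (LinearMap.ker (d.coprod v)) ∧
      Module.Projective B (LinearMap.ker (d.coprod v))

/-- The number of added generators. -/
def IsPerfect.gens (hd : IsPerfect d) : ℕ := hd.exists_gen.choose

/-- The added generators. -/
def IsPerfect.gen (hd : IsPerfect d) : (Fin hd.gens → B) →ₗ[B] Q :=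
  hd.exists_gen.choose_spec.choose

/-- The Euler characteristic as a function on the spectrum. -/
def IsPerfect.chiFun (hd : IsPerfect d) (p : PrimeSpectrum B) : ℤ :=
  (Module.rankAtStalk (LinearMap.ker (d.coprod hd.gen)) p : ℤ) - hd.gens

theorem IsPerfect.isLocallyConstant_chiFun (hd : IsPerfect d) :
    IsLocallyConstant hd.chiFun := by
  obtain ⟨-, hfin, hproj⟩ := hd.exists_gen.choose_spec.choose_spec
  haveI : Module.Finite B (LinearMap.ker (d.coprod hd.gen)) := hfin
  haveI : Module.Projective B (LinearMap.ker (d.coprod hd.gen)) := hproj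
  haveI := Module.finitePresentation_of_projective B (LinearMap.ker (d.coprod hd.gen))
  exact Module.isLocallyConstant_rankAtStalk.comp fun r : ℕ => (r : ℤ) - hd.gens

section Fibre

variable {K : Type u} [Field K] [Algebra B K] {PK QK : Type u}
  [AddCommGroup PK] [Module B PK] [Module K PK] [IsScalarTower B K PK]
  [AddCommGroup QK] [Module B QK] [Module K QK] [IsScalarTower B K QK]
  {dK : PK →ₗ[K] QK} {fK : P →ₗ[B] PK} {gK : Q →ₗ[B] QK}

/-- The Euler characteristic of a fibre. -/
theorem IsPerfect.chi_fibre (hd : IsPerfect d) (comm : ∀ p, gK (d p) = dK (fK p))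
    (hf : IsBaseChange K fK) (hg : IsBaseChange K gK) :
    Module.Finite K (LinearMap.ker dK) ∧ Module.Finite K (QK ⧸ LinearMap.range dK) ∧
      (Module.finrank K (LinearMap.ker dK) : ℤ) - Module.finrank K (QK ⧸ LinearMap.range dK) =
        hd.chiFun (PrimeSpectrum.comap (algebraMap B K) ⊥) := by
  haveI := hd.proj
  obtain ⟨hsurj, hfin, hproj⟩ := hd.exists_gen.choose_spec.choose_spec
  haveI : Module.Finite B (LinearMap.ker (d.coprod hd.gen)) := hfin
  haveI : Module.Projective B (LinearMap.ker (d.coprod hd.gen)) := hproj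
  let w : Fin hd.gens → QK := fun i => gK (hd.gen (Pi.single i 1))
  let vK : (Fin hd.gens → K) →ₗ[K] QK := Fintype.linearCombination K w
  let fE : P × (Fin hd.gens → B) →ₗ[B] PK × (Fin hd.gens → K) :=
    fK.prodMap ((Algebra.linearMap B K).compLeft (Fin hd.gens))
  have hfE : IsBaseChange K fE :=
    IsBaseChange.prodMap _ _ hf (IsBaseChange.finitePow _ (IsBaseChange.linearMap B K))
  have comm' : ∀ x, gK ((d.coprod hd.gen) x) = (dK.coprod vK) (fE x) := by
    rintro ⟨p, c⟩
    have hc : hd.gen c = ∑ i, c i • hd.gen (Pi.single i 1) := by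
      conv_lhs => rw [pi_eq_sum_univ' c, map_sum]
      exact Finset.sum_congr rfl fun i _ => map_smul _ _ _
    simp only [LinearMap.coprod_apply, map_add, comm, fE, LinearMap.prodMap_apply, vK]
    congr 1
    rw [hc, map_sum, Fintype.linearCombination_apply]
    refine Finset.sum_congr rfl fun i _ => ?_
    rw [map_smul]
    exact (algebraMap_smul K (c i) (w i)).symm
  have hK := isBaseChange_kerMap comm' hfE hg hsurj
  have hsurjK : Function.Surjective (dK.coprod vK) := surjective_of_isBaseChange comm' hg hsurj
  haveI : Module.Finite K (LinearMap.ker (dK.coprod vK)) := Module.Finite.equiv hK.equiv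
  obtain ⟨h1, h2, h3⟩ := finrank_ker_sub_finrank_coker dK vK hsurjK
  refine ⟨h1, h2, h3.trans ?_⟩
  rw [IsPerfect.chiFun, ← Module.rankAtStalk_isBaseChange hK,
    Module.rankAtStalk_eq_finrank_of_free]
  simp

end Fibre

/-- If the cokernel vanishes, the Euler characteristic is the rank of the kernel. -/
theorem IsPerfect.ker_of_surjective (hd : IsPerfect d) [Module.Projective B P]
    (hs : Function.Surjective d) :
    Module.Finite B (LinearMap.ker d) ∧ Module.Projective B (LinearMap.ker d) := by
  haveI := hd.proj
  obtain ⟨hsurj, hfin, hproj⟩ := hd.exists_gen.choose_spec.choose_spec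
  haveI : Module.Finite B (LinearMap.ker (d.coprod hd.gen)) := hfin
  obtain ⟨σ, hσ⟩ := Module.projective_lifting_property d LinearMap.id hs
  have hds : ∀ q, d (σ q) = q := fun q => LinearMap.congr_fun hσ q
  let π : P →ₗ[B] LinearMap.ker d :=
    (LinearMap.id - σ.comp d).codRestrict (LinearMap.ker d) fun p => by simp [hds]
  have hπ : ∀ p : LinearMap.ker d, π p.1 = p := fun p =>
    Subtype.ext (by simp [π, LinearMap.mem_ker.mp p.2])
  refine ⟨?_, Module.Projective.of_split (LinearMap.ker d).subtype π (LinearMap.ext hπ)⟩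
  let ρ : LinearMap.ker (d.coprod hd.gen) →ₗ[B] LinearMap.ker d :=
    π.comp ((LinearMap.fst B P (Fin hd.gens → B)).comp
      (LinearMap.ker (d.coprod hd.gen)).subtype)
  refine Module.Finite.of_surjective ρ fun p => ⟨⟨(p.1, 0), ?_⟩, ?_⟩
  · simp [LinearMap.mem_ker.mp p.2]
  · exact hπ p

end Fermat.Agent.Jacobian
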