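/-
A module with two lattices, one stable under a shift and one under the inverse shift, both finite
projective over the polynomial ring: the difference map is a perfect two term complex.
-/
import Fermat.Agent.Jacobian.Cohom.Complex

set_option autoImplicit false
set_option linter.unusedSectionVars false
set_option linter.style.haveILetI false

universe u

open Polynomial

noncomputable section

namespace Fermat.Agent.Jacobian

variable {B : Type u} [CommRing B]

/-- A split embedding of a module with an operator into polynomial coordinates. -/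
structure ShiftFrame {M : Type u} [AddCommGroup M] [Module B M] (X0 : M →ₗ[B] M) where
  n : ℕ
  gen : Fin n → M
  coord : M →ₗ[B] (Fin n × ℕ →₀ B)
  coord_X : ∀ a, coord (X0 a) = (coord a).mapDomain (fun p => (p.1, p.2 + 1))
  sum_coord : ∀ a, Finsupp.linearCombination B (fun p => (X0 ^ p.2) (gen p.1)) (coord a) = a

namespace ShiftFrame

variable {M : Type u} [AddCommGroup M] [Module B M] {X0 : M →ₗ[B] M}

/-- A finite projective module over the polynomial ring has a frame. -/
theorem nonempty_of_projective [Module B[X] M] [IsScalarTower B B[X] M] [Module.Finite B[X] M]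
    [Module.Projective B[X] M] (hX : ∀ a, X0 a = (X : B[X]) • a) : Nonempty (ShiftFrame X0) := by
  obtain ⟨n, f, g, -, -, hfg⟩ := Module.Finite.exists_comp_eq_id_of_projective B[X] M
  let bP : Module.Basis (Fin n × ℕ) B (Fin n → B[X]) :=
    (Pi.basis fun _ : Fin n => Polynomial.basisMonomials B).reindex (Equiv.sigmaEquivProd _ _)
  have hb : ∀ (i : Fin n) (k : ℕ), bP (i, k) = Pi.single i (monomial k (1 : B)) := fun i k => by
    simp [bP]
  have hpow : ∀ (k : ℕ) (a : M), (X0 ^ k) a = (X : B[X]) ^ k • a := fun k => by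
    induction k with
    | zero => simp
    | succ k ih => intro a; rw [pow_succ, Module.End.mul_apply, ih, hX, pow_succ, mul_smul]
  refine ⟨⟨n, fun i => f (Pi.single i 1), bP.repr.toLinearMap.comp (g.restrictScalars B),
    fun a => ?_, fun a => ?_⟩⟩
  · have key : bP.repr.toLinearMap.comp (LinearMap.lsmul B[X] (Fin n → B[X]) X |>.restrictScalars B) =
        (Finsupp.lmapDomain B B fun p : Fin n × ℕ => (p.1, p.2 + 1)).comp bP.repr.toLinearMap := by
      refine bP.ext fun ⟨i, k⟩ => ?_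
      have h2 : (X : B[X]) • bP (i, k) = bP (i, k + 1) := by
        rw [hb, hb, ← Pi.single_smul', smul_eq_mul, X_mul_monomial]
      show bP.repr ((X : B[X]) • bP (i, k)) = Finsupp.mapDomain _ (bP.repr (bP (i, k)))
      rw [h2, Module.Basis.repr_self, Module.Basis.repr_self, Finsupp.mapDomain_single]
    show bP.repr (g (X0 a)) = _
    rw [hX, map_smul]
    exact LinearMap.congr_fun key (g a)
  · have key : (Finsupp.linearCombination B fun p : Fin n × ℕ => (X0 ^ p.2) (f (Pi.single p.1 1))).comp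
        bP.repr.toLinearMap = f.restrictScalars B := by
      refine bP.ext fun ⟨i, k⟩ => ?_
      show Finsupp.linearCombination B _ (bP.repr (bP (i, k))) = f (bP (i, k))
      rw [Module.Basis.repr_self, Finsupp.linearCombination_single, one_smul, hpow, hb,
        ← map_smul, ← Pi.single_smul', smul_eq_mul, mul_one, monomial_one_right_eq_X_pow]
    exact (LinearMap.congr_fun key (g a)).trans (LinearMap.congr_fun hfg a)

theorem projective (F : ShiftFrame X0) : Module.Projective B M :=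
  Module.Projective.of_split F.coord (Finsupp.linearCombination B fun p => (X0 ^ p.2) (F.gen p.1))
    (LinearMap.ext F.sum_coord)

theorem coord_pow (F : ShiftFrame X0) (k : ℕ) (a : M) :
    F.coord ((X0 ^ k) a) = (F.coord a).mapDomain (fun p => (p.1, p.2 + k)) := by
  induction k generalizing a with
  | zero => exact Finsupp.mapDomain_id.symm
  | succ k ih =>
    rw [pow_succ, Module.End.mul_apply, ih, F.coord_X, ← Finsupp.mapDomain_comp]
    congr 1
    funext p
    simp only [Function.comp_apply, Prod.mk.injEq, true_and]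
    omega

theorem span_eq_top (F : ShiftFrame X0) :
    Submodule.span B (Set.range fun p : Fin F.n × ℕ => (X0 ^ p.2) (F.gen p.1)) = ⊤ := by
  rw [← Finsupp.range_linearCombination]
  exact LinearMap.range_eq_top.mpr fun a => ⟨_, F.sum_coord a⟩

end ShiftFrame

/-- Two lattices for a shift. -/
structure ShiftPair (M0 M1 M01 : Type u) [AddCommGroup M0] [Module B M0] [AddCommGroup M1]
    [Module B M1] [AddCommGroup M01] [Module B M01] where
  X0 : M0 →ₗ[B] M0
  X1 : M1 →ₗ[B] M1
  T : M01 ≃ₗ[B] M01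
  ρ0 : M0 →ₗ[B] M01
  ρ1 : M1 →ₗ[B] M01
  ρ0_X : ∀ a, ρ0 (X0 a) = T (ρ0 a)
  ρ1_X : ∀ b, ρ1 (X1 b) = T.symm (ρ1 b)
  ρ0_inj : Function.Injective ρ0
  ρ1_inj : Function.Injective ρ1
  gen0 : ∀ m, ∃ (n : ℕ) (a : M0), (T ^ (n : ℤ)) m = ρ0 a
  gen1 : ∀ m, ∃ (n : ℕ) (b : M1), (T ^ (-(n : ℤ))) m = ρ1 b
  F0 : ShiftFrame X0
  F1 : ShiftFrame X1

namespace ShiftPair

variable {M0 M1 M01 : Type u} [AddCommGroup M0] [Module B M0] [AddCommGroup M1]
    [Module B M1] [AddCommGroup M01] [Module B M01] (S : ShiftPair (B := B) M0 M1 M01)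

/-- The pair with the roles of the two lattices exchanged. -/
def swap : ShiftPair (B := B) M1 M0 M01 where
  X0 := S.X1
  X1 := S.X0
  T := S.T.symm
  ρ0 := S.ρ1
  ρ1 := S.ρ0
  ρ0_X := S.ρ1_X
  ρ1_X := S.ρ0_X
  ρ0_inj := S.ρ1_inj
  ρ1_inj := S.ρ0_inj
  gen0 m := by
    obtain ⟨n, b, h⟩ := S.gen1 m
    refine ⟨n, b, ?_⟩
    show ((S.T⁻¹) ^ (n : ℤ)) m = _
    rwa [inv_zpow']
  gen1 m := by
    obtain ⟨n, a, h⟩ := S.gen0 m
    refine ⟨n, a, ?_⟩
    show ((S.T⁻¹) ^ (-(n : ℤ))) m = _
    rwa [inv_zpow', neg_neg]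
  F0 := S.F1
  F1 := S.F0

theorem zpow_apply (i j : ℤ) (m : M01) : (S.T ^ i) ((S.T ^ j) m) = (S.T ^ (i + j)) m := by
  rw [zpow_add]
  rfl

theorem ρ0_pow (k : ℕ) (a : M0) : S.ρ0 ((S.X0 ^ k) a) = (S.T ^ (k : ℤ)) (S.ρ0 a) := by
  induction k generalizing a with
  | zero => rfl
  | succ k ih =>
    rw [pow_succ, Module.End.mul_apply, ih, S.ρ0_X, Nat.cast_succ, zpow_add, zpow_one]
    rfl

theorem ρ1_pow (k : ℕ) (b : M1) : S.ρ1 ((S.X1 ^ k) b) = (S.T ^ (-(k : ℤ))) (S.ρ1 b) := by
  have := S.swap.ρ0_pow k b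
  rw [← inv_zpow']
  exact this

theorem exists_rep_add {m : M01} {n : ℕ} {a : M0} (h : (S.T ^ (n : ℤ)) m = S.ρ0 a) (k : ℕ) :
    (S.T ^ ((n + k : ℕ) : ℤ)) m = S.ρ0 ((S.X0 ^ k) a) := by
  rw [ρ0_pow, ← h, S.zpow_apply]
  push_cast
  rw [add_comm]

/-- Coordinates of an element with a given representation. -/
def repCoord (n : ℕ) (a : M0) : Fin S.F0.n × ℤ →₀ B :=
  (S.F0.coord a).mapDomain fun p => (p.1, (p.2 : ℤ) - n)

theorem repCoord_eq {m : M01} {n n' : ℕ} {a a' : M0} (h : (S.T ^ (n : ℤ)) m = S.ρ0 a)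
    (h' : (S.T ^ (n' : ℤ)) m = S.ρ0 a') : S.repCoord n a = S.repCoord n' a' := by
  wlog hn : n ≤ n' generalizing n n' a a'
  · exact (this h' h (le_of_not_ge hn)).symm
  obtain ⟨k, rfl⟩ := Nat.exists_eq_add_of_le hn
  obtain rfl : a' = (S.X0 ^ k) a := S.ρ0_inj (h'.symm.trans (S.exists_rep_add h k))
  rw [repCoord, repCoord, S.F0.coord_pow, ← Finsupp.mapDomain_comp]
  congr 1
  funext p
  simp only [Function.comp_apply, Prod.mk.injEq, true_and]
  omega

/-- Laurent coordinates. -/
def coord01 : M01 →ₗ[B] (Fin S.F0.n × ℤ →₀ B) where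
  toFun m := S.repCoord (S.gen0 m).choose (S.gen0 m).choose_spec.choose
  map_add' m m' := by
    obtain ⟨n, a, h⟩ := S.gen0 m
    obtain ⟨n', a', h'⟩ := S.gen0 m'
    have e := S.exists_rep_add h n'
    have e' := S.exists_rep_add h' n
    rw [add_comm n' n] at e'
    rw [S.repCoord_eq (S.gen0 m).choose_spec.choose_spec e,
      S.repCoord_eq (S.gen0 m').choose_spec.choose_spec e',
      S.repCoord_eq (S.gen0 (m + m')).choose_spec.choose_spec
        (show (S.T ^ ((n + n' : ℕ) : ℤ)) (m + m') = S.ρ0 ((S.X0 ^ n') a + (S.X0 ^ n) a') by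
          rw [map_add, map_add, e, e'])]
    simp only [repCoord, map_add, Finsupp.mapDomain_add]
  map_smul' r m := by
    obtain ⟨n, a, h⟩ := S.gen0 m
    rw [S.repCoord_eq (S.gen0 m).choose_spec.choose_spec h,
      S.repCoord_eq (S.gen0 (r • m)).choose_spec.choose_spec
        (show (S.T ^ (n : ℤ)) (r • m) = S.ρ0 (r • a) by rw [map_smul, map_smul, h])]
    simp only [repCoord, map_smul, Finsupp.mapDomain_smul, RingHom.id_apply]

theorem coord01_eq {m : M01} {n : ℕ} {a : M0} (h : (S.T ^ (n : ℤ)) m = S.ρ0 a) :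
    S.coord01 m = S.repCoord n a :=
  S.repCoord_eq (S.gen0 m).choose_spec.choose_spec h

theorem sum_coord01 (m : M01) :
    Finsupp.linearCombination B (fun p => (S.T ^ p.2) (S.ρ0 (S.F0.gen p.1))) (S.coord01 m) = m := by
  obtain ⟨n, a, h⟩ := S.gen0 m
  rw [S.coord01_eq h, repCoord, Finsupp.linearCombination_mapDomain]
  have key : Finsupp.linearCombination B ((fun p : Fin S.F0.n × ℤ =>
      (S.T ^ p.2) (S.ρ0 (S.F0.gen p.1))) ∘ fun p : Fin S.F0.n × ℕ => (p.1, (p.2 : ℤ) - n)) =
      (S.T ^ (-(n : ℤ))).toLinearMap.comp (S.ρ0.comp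
        (Finsupp.linearCombination B fun p => (S.X0 ^ p.2) (S.F0.gen p.1))) := by
    refine Finsupp.lhom_ext fun p r => ?_
    simp only [Finsupp.linearCombination_single, Function.comp_apply, LinearMap.comp_apply,
      map_smul, LinearEquiv.coe_coe]
    rw [S.ρ0_pow, S.zpow_apply, neg_add_eq_sub]
  rw [key]
  simp only [LinearMap.comp_apply, LinearEquiv.coe_coe, S.F0.sum_coord, ← h]
  rw [S.zpow_apply, neg_add_cancel, zpow_zero]
  rfl

include S in
theorem projective01 : Module.Projective B M01 :=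
  Module.Projective.of_split S.coord01
    (Finsupp.linearCombination B fun p => (S.T ^ p.2) (S.ρ0 (S.F0.gen p.1)))
    (LinearMap.ext S.sum_coord01)

/-- Elements of degree at most `d`. -/
def degLE (d : ℕ) : Submodule B M01 :=
  (Finsupp.supported B B {p : Fin S.F0.n × ℤ | p.2 ≤ d}).comap S.coord01

theorem degLE_mono {d d' : ℕ} (h : d ≤ d') : S.degLE d ≤ S.degLE d' :=
  Submodule.comap_mono (Finsupp.supported_mono fun p (hp : p.2 ≤ (d : ℤ)) => show p.2 ≤ (d' : ℤ) by omega)

theorem exists_degLE (m : M01) : ∃ d, m ∈ S.degLE d := by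
  refine ⟨(S.coord01 m).support.sup fun p => p.2.toNat, ?_⟩
  intro p hp
  exact le_trans (Int.self_le_toNat p.2)
    (by exact_mod_cast Finset.le_sup (f := fun p => p.2.toNat) (Finset.mem_coe.mp hp))

theorem degLE_stable {d : ℕ} {m : M01} (h : m ∈ S.degLE d) (k : ℕ) :
    (S.T ^ (-(k : ℤ))) m ∈ S.degLE d := by
  obtain ⟨n, a, hna⟩ := S.gen0 m
  have hk : (S.T ^ ((n + k : ℕ) : ℤ)) ((S.T ^ (-(k : ℤ))) m) = S.ρ0 a := by
    rw [S.zpow_apply, ← hna]
    push_cast
    rw [add_neg_cancel_right]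
  show S.coord01 _ ∈ Finsupp.supported B B _
  rw [S.coord01_eq hk]
  have h' : S.repCoord n a ∈ Finsupp.supported B B {p : Fin S.F0.n × ℤ | p.2 ≤ d} := by
    rw [← S.coord01_eq hna]
    exact h
  have e : S.repCoord (n + k) a = (S.repCoord n a).mapDomain fun p : Fin S.F0.n × ℤ => (p.1, p.2 - (k : ℤ)) := by
    rw [repCoord, repCoord, ← Finsupp.mapDomain_comp]
    congr 1
    funext p
    simp only [Function.comp_apply, Prod.mk.injEq, true_and]
    omega
  rw [e, Finsupp.mem_supported]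
  intro q hq
  classical
  obtain ⟨p, hp, rfl⟩ := Finset.mem_image.mp (Finsupp.mapDomain_support (Finset.mem_coe.mp hq))
  have hp' : p.2 ≤ (d : ℤ) := (Finsupp.mem_supported B _).mp h' (Finset.mem_coe.mpr hp)
  show p.2 - (k : ℤ) ≤ d
  omega

theorem mem_span_of_degLE {d : ℕ} {a : M0} (h : S.ρ0 a ∈ S.degLE d) :
    a ∈ Submodule.span B
      (Set.range fun p : Fin S.F0.n × Fin (d + 1) => (S.X0 ^ (p.2 : ℕ)) (S.F0.gen p.1)) := by
  have hrep : (S.T ^ ((0 : ℕ) : ℤ)) (S.ρ0 a) = S.ρ0 a := rfl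
  have h' : S.repCoord 0 a ∈ Finsupp.supported B B {p : Fin S.F0.n × ℤ | p.2 ≤ d} := by
    rw [← S.coord01_eq hrep]
    exact h
  rw [← S.F0.sum_coord a, Finsupp.linearCombination_apply]
  refine Submodule.sum_mem _ fun p hp => Submodule.smul_mem _ _ (Submodule.subset_span ?_)
  have hinj : Function.Injective fun p : Fin S.F0.n × ℕ => (p.1, (p.2 : ℤ) - (0 : ℕ)) := by
    intro p q hpq
    simp only [Prod.mk.injEq] at hpq
    exact Prod.ext hpq.1 (by omega)
  have hmem : (p.1, (p.2 : ℤ) - (0 : ℕ)) ∈ (S.repCoord 0 a).support := by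
    rw [Finsupp.mem_support_iff, repCoord]
    rw [Finsupp.mapDomain_apply hinj (S.F0.coord a) p]
    exact Finsupp.mem_support_iff.mp hp
  have hle : ((p.2 : ℤ) - (0 : ℕ)) ≤ (d : ℤ) :=
    (Finsupp.mem_supported B _).mp h' (Finset.mem_coe.mpr hmem)
  exact ⟨(p.1, ⟨p.2, by omega⟩), rfl⟩

/-- The first component of the kernel, after adding finitely many elements, is bounded. -/
theorem exists_bound {m : ℕ} (v : (Fin m → B) →ₗ[B] M01) :
    ∃ W : Submodule B M0, W.FG ∧ ∀ a b c, S.ρ0 a = S.ρ1 b + v c → a ∈ W := by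
  choose dt hdt using fun l => S.exists_degLE (S.ρ1 (S.F1.gen l))
  choose dv hdv using fun i => S.exists_degLE (v (Pi.single i 1))
  let D : ℕ := Finset.univ.sup dt + Finset.univ.sup dv
  have h1 : ∀ b, S.ρ1 b ∈ S.degLE D := by
    intro b
    have hle : Submodule.span B (Set.range fun p : Fin S.F1.n × ℕ => (S.X1 ^ p.2) (S.F1.gen p.1)) ≤
        (S.degLE D).comap S.ρ1 := by
      rw [Submodule.span_le]
      rintro _ ⟨⟨l, k⟩, rfl⟩
      show S.ρ1 _ ∈ S.degLE D
      rw [S.ρ1_pow]
      exact S.degLE_stable (S.degLE_mono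
        (le_add_right (Finset.le_sup (Finset.mem_univ l))) (hdt l)) k
    rw [S.F1.span_eq_top] at hle
    exact hle Submodule.mem_top
  refine ⟨_, Submodule.fg_span (Set.finite_range
    fun p : Fin S.F0.n × Fin (D + 1) => (S.X0 ^ (p.2 : ℕ)) (S.F0.gen p.1)), fun a b c h => ?_⟩
  refine S.mem_span_of_degLE ?_
  rw [h, pi_eq_sum_univ' c, map_sum]
  refine add_mem (h1 b) (Submodule.sum_mem _ fun i _ => ?_)
  rw [map_smul]
  exact Submodule.smul_mem _ _
    (S.degLE_mono (le_add_left (Finset.le_sup (Finset.mem_univ i))) (hdv i))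

/-- The difference map. -/
def diff : (M0 × M1) →ₗ[B] M01 := S.ρ0.coprod (-S.ρ1)

/-- The cokernel is finite. -/
theorem finite_coker : Module.Finite B (M01 ⧸ LinearMap.range S.diff) := by
  choose N b hb using fun i => S.gen1 (S.ρ0 (S.F0.gen i))
  let G : Fin S.F0.n × Fin (Finset.univ.sup N + 1) → M01 ⧸ LinearMap.range S.diff := fun p =>
    (LinearMap.range S.diff).mkQ ((S.T ^ (-((p.2 : ℕ) : ℤ))) (S.ρ0 (S.F0.gen p.1)))
  refine ⟨?_⟩
  have h : (⊤ : Submodule B (M01 ⧸ LinearMap.range S.diff)) ≤ Submodule.span B (Set.range G) := by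
    rintro z -
    obtain ⟨m, rfl⟩ := Submodule.mkQ_surjective _ z
    rw [← S.sum_coord01 m, Finsupp.linearCombination_apply, Finsupp.sum, map_sum]
    refine Submodule.sum_mem _ fun p _ => ?_
    rw [map_smul]
    refine Submodule.smul_mem _ _ ?_
    obtain ⟨i, j⟩ := p
    by_cases hj : 0 ≤ j
    · obtain ⟨k, rfl⟩ := Int.eq_ofNat_of_zero_le hj
      have : (S.T ^ (k : ℤ)) (S.ρ0 (S.F0.gen i)) ∈ LinearMap.range S.diff :=
        ⟨((S.X0 ^ k) (S.F0.gen i), 0), by simp [diff, S.ρ0_pow]⟩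
      rw [Submodule.mkQ_apply, (Submodule.Quotient.mk_eq_zero _).mpr this]
      exact zero_mem _
    · obtain ⟨k, rfl⟩ : ∃ k : ℕ, j = -(k : ℤ) := ⟨j.natAbs, by omega⟩
      by_cases hk : k ≤ Finset.univ.sup N
      · exact Submodule.subset_span ⟨(i, ⟨k, by omega⟩), rfl⟩
      · obtain ⟨l, rfl⟩ := Nat.exists_eq_add_of_le
          (le_trans (Finset.le_sup (f := N) (Finset.mem_univ i)) (le_of_not_ge hk))
        have : (S.T ^ (-((N i + l : ℕ) : ℤ))) (S.ρ0 (S.F0.gen i)) ∈ LinearMap.range S.diff := by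
          refine ⟨(0, -(S.X1 ^ l) (b i)), ?_⟩
          simp only [diff, LinearMap.coprod_apply, map_zero, zero_add, LinearMap.neg_apply, map_neg,
            neg_neg, S.ρ1_pow, ← hb, S.zpow_apply]
          push_cast
          rw [neg_add, add_comm]
        rw [Submodule.mkQ_apply, (Submodule.Quotient.mk_eq_zero _).mpr this]
        exact zero_mem _
  rw [← top_le_iff.mp h]
  exact Submodule.fg_span (Set.finite_range G)

/-- The difference map is a perfect complex. -/
theorem isPerfect : IsPerfect S.diff := by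
  haveI := S.finite_coker
  haveI := S.projective01
  haveI := S.F0.projective
  haveI := S.F1.projective
  refine ⟨S.projective01, ?_⟩
  obtain ⟨m, z, hz⟩ := Module.Finite.exists_fin' B (M01 ⧸ LinearMap.range S.diff)
  obtain ⟨v, hv⟩ := Module.projective_lifting_property _ z
    (Submodule.mkQ_surjective (LinearMap.range S.diff))
  have hsurj : Function.Surjective (S.diff.coprod v) := by
    intro q
    obtain ⟨c, hc⟩ := hz ((LinearMap.range S.diff).mkQ q)
    rw [← hv] at hc
    obtain ⟨p, hp⟩ := (Submodule.Quotient.eq _).mp hc.symm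
    exact ⟨(p, c), by simp [hp]⟩
  refine ⟨m, v, hsurj, ?_⟩
  obtain ⟨σ, hσ⟩ := Module.projective_lifting_property _ LinearMap.id hsurj
  have hds : ∀ q, S.diff.coprod v (σ q) = q := fun q => LinearMap.congr_fun hσ q
  let π : (M0 × M1) × (Fin m → B) →ₗ[B] LinearMap.ker (S.diff.coprod v) :=
    (LinearMap.id - σ.comp (S.diff.coprod v)).codRestrict (LinearMap.ker (S.diff.coprod v))
      fun p => by
        rw [LinearMap.mem_ker, LinearMap.sub_apply, map_sub, LinearMap.comp_apply, hds,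
          LinearMap.id_apply, sub_self]
  have hπ : ∀ p : LinearMap.ker (S.diff.coprod v), π p.1 = p := fun p => Subtype.ext (by
    show p.1 - σ (S.diff.coprod v p.1) = p.1
    rw [LinearMap.mem_ker.mp p.2, map_zero, sub_zero])
  refine ⟨?_, Module.Projective.of_split (LinearMap.ker (S.diff.coprod v)).subtype π
    (LinearMap.ext hπ)⟩
  obtain ⟨W0, hW0, hb0⟩ := S.exists_bound (-v)
  obtain ⟨W1, hW1, hb1⟩ := S.swap.exists_bound v
  have hle : LinearMap.ker (S.diff.coprod v) ≤ (W0.prod W1).prod ⊤ := by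
    rintro ⟨⟨a, b⟩, c⟩ hx
    have hx' : S.ρ0 a - S.ρ1 b + v c = 0 := by
      simpa [diff, sub_eq_add_neg] using hx
    refine ⟨⟨hb0 a b c ?_, hb1 b a c ?_⟩, Submodule.mem_top⟩
    · rw [LinearMap.neg_apply]
      linear_combination (norm := abel) hx'
    · show S.ρ1 b = S.ρ0 a + v c
      linear_combination (norm := abel) -hx'
  haveI : Module.Finite B ↥((W0.prod W1).prod (⊤ : Submodule B (Fin m → B))) :=
    Module.Finite.iff_fg.mpr ((hW0.prod hW1).prod Module.Finite.fg_top)
  exact Module.Finite.of_surjective (π.comp ((W0.prod W1).prod ⊤).subtype)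
    fun p => ⟨⟨p.1, hle p.2⟩, hπ p⟩

end ShiftPair

end Fermat.Agent.Jacobian
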