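/-
The two term complex of a line system on a pair of charts over an affine base is perfect.
-/
import Fermat.Agent.Jacobian.Cohom.Lattice
import Fermat.Agent.Jacobian.Cohom.ChartBase
import Fermat.Agent.Jacobian.Line.AffineBaseChange

set_option autoImplicit false
set_option linter.unusedVariables false
set_option linter.style.haveILetI false

universe u

open CategoryTheory AlgebraicGeometry TopologicalSpace Opposite Polynomial

noncomputable section

namespace Fermat.Agent.Jacobian

variable {X T : Scheme.{u}} (p : X ⟶ T) (L : LineSys X)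

/-- Multiplication by a function, linear over the base. -/
def secMul {V : X.Opens} (a : Γ(X, V)) : SecOver p L V →ₗ[Γ(T, ⊤)] SecOver p L V where
  toFun s := (show SecOver p L V from a • (show L.Sec V from s))
  map_add' s t := smul_add a (show L.Sec V from s) (show L.Sec V from t)
  map_smul' r s := (smul_comm a (baseHom p V r) (show L.Sec V from s))

theorem secMul_pow {V : X.Opens} (a : Γ(X, V)) (n : ℕ) (s : SecOver p L V) :
    (secMul p L a ^ n) s = (show SecOver p L V from a ^ n • (show L.Sec V from s)) := by
  induction n generalizing s with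
  | zero =>
    simp only [pow_zero, Module.End.one_apply]
    exact (one_smul Γ(X, V) (show L.Sec V from s)).symm
  | succ n ih =>
    rw [pow_succ', Module.End.mul_apply, ih, pow_succ', mul_smul]
    rfl

theorem secRes_secMul {V V' : X.Opens} (h : V' ≤ V) (a : Γ(X, V)) (s : SecOver p L V) :
    secRes p L h (secMul p L a s) = secMul p L (res h a) (secRes p L h s) :=
  LineSys.Sec.restrict_smul h a s

/-- Multiplication by a unit. -/
def secMulEquiv {V : X.Opens} (a b : Γ(X, V)) (h : a * b = 1) :
    SecOver p L V ≃ₗ[Γ(T, ⊤)] SecOver p L V :=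
  LinearEquiv.ofLinearMap (secMul p L a) (secMul p L b)
    (LinearMap.ext fun s => show a • b • (show L.Sec V from s) = s by rw [smul_smul, h, one_smul])
    (LinearMap.ext fun s => show b • a • (show L.Sec V from s) = s by
      rw [smul_smul, mul_comm, h, one_smul])

/-- The module structure over the coordinate line. -/
@[reducible] def polyModule {V : X.Opens} (x : Γ(X, V)) : Module Γ(T, ⊤)[X] (SecOver p L V) :=
  Module.compHom (L.Sec V) (Polynomial.eval₂RingHom (baseHom p V) x)

/-- Sections on a chart have a frame. -/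
theorem nonempty_shiftFrame {V : X.Opens} (hV : IsAffineOpen V) (x : Γ(X, V))
    (hfree : ∃ (n : ℕ) (v : Fin n → Γ(X, V)), Function.Bijective
      fun r : Fin n → Γ(T, ⊤)[X] => ∑ i, (r i).eval₂ (baseHom p V) x * v i) :
    Nonempty (ShiftFrame (secMul p L x)) := by
  obtain ⟨n, v, hv⟩ := hfree
  letI : Algebra Γ(T, ⊤)[X] Γ(X, V) := (Polynomial.eval₂RingHom (baseHom p V) x).toAlgebra
  let Ψ : (Fin n → Γ(T, ⊤)[X]) →ₗ[Γ(T, ⊤)[X]] Γ(X, V) := Fintype.linearCombination _ v
  have hΨ : ⇑Ψ = fun r : Fin n → Γ(T, ⊤)[X] => ∑ i, (r i).eval₂ (baseHom p V) x * v i :=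
    funext fun r => rfl
  rw [← hΨ] at hv
  haveI : Module.Finite Γ(T, ⊤)[X] Γ(X, V) := Module.Finite.of_surjective Ψ hv.2
  haveI : Module.Free Γ(T, ⊤)[X] Γ(X, V) := Module.Free.of_equiv (LinearEquiv.ofBijective Ψ hv)
  letI := polyModule p L x
  haveI : IsScalarTower Γ(T, ⊤) Γ(T, ⊤)[X] (SecOver p L V) :=
    IsScalarTower.of_algebraMap_smul fun r s => by
      show (Polynomial.eval₂RingHom (baseHom p V) x) (C r) • (show L.Sec V from s) = _
      rw [Polynomial.coe_eval₂RingHom, eval₂_C]
      rfl
  letI : Module Γ(X, V) (SecOver p L V) := inferInstanceAs (Module Γ(X, V) (L.Sec V))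
  haveI : IsScalarTower Γ(T, ⊤)[X] Γ(X, V) (SecOver p L V) :=
    IsScalarTower.of_algebraMap_smul fun _ _ => rfl
  haveI : Module.Finite Γ(X, V) (SecOver p L V) := LineSys.Sec.finite hV
  haveI : Module.Projective Γ(X, V) (SecOver p L V) := LineSys.Sec.projective hV
  haveI : Module.Finite Γ(T, ⊤)[X] (SecOver p L V) := Module.Finite.trans Γ(X, V) _
  haveI : Module.Projective Γ(T, ⊤)[X] (SecOver p L V) := by
    obtain ⟨m, f, g, -, -, hfg⟩ := Module.Finite.exists_comp_eq_id_of_projective Γ(X, V)
      (SecOver p L V)
    exact Module.Projective.of_split (g.restrictScalars _) (f.restrictScalars _)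
      (LinearMap.ext fun s => LinearMap.congr_fun hfg s)
  exact ShiftFrame.nonempty_of_projective fun s => by
    show x • (show L.Sec V from s) = (Polynomial.eval₂RingHom (baseHom p V) x) Polynomial.X •
      (show L.Sec V from s)
    rw [Polynomial.coe_eval₂RingHom, eval₂_X]

/-- Sections on the overlap extend up to a power of the coordinate. -/
theorem exists_pow_eq_secRes {V V' : X.Opens} (hV : IsAffineOpen V) (x : Γ(X, V))
    (hV' : V' = X.basicOpen x) (h : V' ≤ V) (m : SecOver p L V') :
    ∃ (n : ℕ) (a : SecOver p L V), (secMul p L (res h x) ^ n) m = secRes p L h a := by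
  subst hV'
  obtain ⟨n, a, ha⟩ := LineSys.Sec.exists_extend hV x (L := L) m
  refine ⟨n, a, ?_⟩
  rw [secMul_pow, ← map_pow]
  exact ha.symm

/-- Restriction to the locus where a regular coordinate is invertible is injective. -/
theorem injective_secRes {V V' : X.Opens} (hV : IsAffineOpen V) (x : Γ(X, V))
    (hV' : V' = X.basicOpen x) (h : V' ≤ V) (F : ShiftFrame (secMul p L x)) :
    Function.Injective (secRes p L h) := by
  subst hV'
  rw [injective_iff_map_eq_zero]
  intro s hs
  obtain ⟨n, hn⟩ := LineSys.Sec.exists_pow_smul_eq_zero hV x (L := L) s hs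
  have h1 : F.coord ((secMul p L x ^ n) s) = 0 := by
    rw [secMul_pow]
    exact (congrArg F.coord hn).trans (map_zero _)
  rw [F.coord_pow] at h1
  have hinj : Function.Injective fun q : Fin F.n × ℕ => (q.1, q.2 + n) := fun a b e => by
    simp only [Prod.mk.injEq] at e
    exact Prod.ext e.1 (by omega)
  have h2 : F.coord s = 0 :=
    Finsupp.mapDomain_injective hinj (h1.trans Finsupp.mapDomain_zero.symm)
  rw [← F.sum_coord s, h2, map_zero]

variable {p}

namespace TwoChart

variable (M : TwoChart p)

theorem y_mul_x : res (inf_le_right : M.U0 ⊓ M.U1 ≤ M.U1) M.y *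
    res (inf_le_left : M.U0 ⊓ M.U1 ≤ M.U0) M.x = 1 := by
  rw [mul_comm]
  exact M.x_mul_y

theorem isAffine01 : IsAffineOpen (M.U0 ⊓ M.U1) := by
  rw [M.inter0]
  exact M.isAffine0.basicOpen M.x

/-- The two lattices in the sections on the overlap. -/
def shiftPair : ShiftPair (B := Γ(T, ⊤)) (SecOver p L M.U0) (SecOver p L M.U1)
    (SecOver p L (M.U0 ⊓ M.U1)) where
  X0 := secMul p L M.x
  X1 := secMul p L M.y
  T := secMulEquiv p L _ _ M.x_mul_y
  ρ0 := secRes p L inf_le_left
  ρ1 := secRes p L inf_le_right
  ρ0_X := secRes_secMul p L _ M.x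
  ρ1_X := secRes_secMul p L _ M.y
  ρ0_inj := injective_secRes p L M.isAffine0 M.x M.inter0 _
    (nonempty_shiftFrame p L M.isAffine0 M.x M.free0).some
  ρ1_inj := injective_secRes p L M.isAffine1 M.y M.inter1 _
    (nonempty_shiftFrame p L M.isAffine1 M.y M.free1).some
  gen0 m := by
    obtain ⟨n, a, h⟩ := exists_pow_eq_secRes p L M.isAffine0 M.x M.inter0 inf_le_left m
    refine ⟨n, a, Eq.trans ?_ h⟩
    rw [zpow_natCast]
    clear h
    induction n generalizing m with
    | zero => rfl
    | succ n ih => rw [pow_succ, pow_succ]; exact ih _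
  gen1 m := by
    obtain ⟨n, a, h⟩ := exists_pow_eq_secRes p L M.isAffine1 M.y M.inter1 inf_le_right m
    refine ⟨n, a, Eq.trans ?_ h⟩
    rw [← inv_zpow', zpow_natCast]
    clear h
    induction n generalizing m with
    | zero => rfl
    | succ n ih => rw [pow_succ, pow_succ]; exact ih _
  F0 := (nonempty_shiftFrame p L M.isAffine0 M.x M.free0).some
  F1 := (nonempty_shiftFrame p L M.isAffine1 M.y M.free1).some

theorem diff_shiftPair : (M.shiftPair L).diff = cechD p L M.U0 M.U1 := rfl

/-- The two term complex is perfect. -/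
theorem isPerfect_cechD : IsPerfect (cechD p L M.U0 M.U1) := (M.shiftPair L).isPerfect

theorem projective_sec0 : Module.Projective Γ(T, ⊤) (SecOver p L M.U0) :=
  (M.shiftPair L).F0.projective

theorem projective_sec1 : Module.Projective Γ(T, ⊤) (SecOver p L M.U1) :=
  (M.shiftPair L).F1.projective

theorem projective_sec01 : Module.Projective Γ(T, ⊤) (SecOver p L (M.U0 ⊓ M.U1)) :=
  (M.shiftPair L).projective01

theorem finite_cechH1 : Module.Finite Γ(T, ⊤) (CechH1 p L M.U0 M.U1) :=
  (M.shiftPair L).finite_coker

include M in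
theorem le_iSup_charts :
    (⊤ : X.Opens) ≤ iSup fun i : Bool => bif i then M.U1 else M.U0 := by
  rw [← M.cover]
  exact sup_le (le_iSup (fun i : Bool => bif i then M.U1 else M.U0) false)
    (le_iSup (fun i : Bool => bif i then M.U1 else M.U0) true)

/-- Global sections as the kernel of the differential. -/
def globalEquiv : SecOver p L ⊤ ≃ₗ[Γ(T, ⊤)] LinearMap.ker (cechD p L M.U0 M.U1) :=
  LinearEquiv.ofBijective
    (((secRes p L (le_top : M.U0 ≤ ⊤)).prod (secRes p L (le_top : M.U1 ≤ ⊤))).codRestrict
      (LinearMap.ker (cechD p L M.U0 M.U1)) fun s => by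
        simp only [cechD, LinearMap.mem_ker, LinearMap.coprod_apply, LinearMap.prod_apply,
          LinearMap.neg_apply]
        exact add_neg_cancel _)
    ⟨fun s t h => LineSys.Sec.ext_of_cover (fun i : Bool => bif i then M.U1 else M.U0)
        (fun _ => le_top) M.le_iSup_charts fun i => by
          have h' := congrArg Subtype.val h
          cases i
          exacts [congrArg Prod.fst h', congrArg Prod.snd h'],
      fun ⟨⟨a, b⟩, hab⟩ => by
        have hab' : LineSys.Sec.restrict (inf_le_left : M.U0 ⊓ M.U1 ≤ M.U0) (L := L) a =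
            LineSys.Sec.restrict inf_le_right (L := L) b := by
          have : secRes p L (inf_le_left : M.U0 ⊓ M.U1 ≤ M.U0) a +
              -secRes p L inf_le_right b = 0 := hab
          exact sub_eq_zero.mp ((sub_eq_add_neg _ _).trans this)
        obtain ⟨t, ht, -⟩ := LineSys.Sec.existsUnique_glue (L := L) (V := ⊤)
          (fun i : Bool => bif i then M.U1 else M.U0) (fun _ => le_top) M.le_iSup_charts
          (fun i => match i with | false => a | true => b) (fun i j => by
            cases i <;> cases j
            · rfl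
            · exact hab'
            · exact (congrArg (fun u => LineSys.Sec.restrict (L := L)
                (inf_comm M.U1 M.U0).le u) hab').symm
            · rfl)
        exact ⟨t, Subtype.ext (Prod.ext (ht false) (ht true))⟩⟩

end TwoChart

end Fermat.Agent.Jacobian
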