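/-
Base change of the two term complex of a line system along a morphism of affine bases.
-/
import Fermat.Agent.Jacobian.Cohom.Pair

set_option autoImplicit false
set_option linter.unusedVariables false
set_option linter.style.haveILetI false

universe u

open CategoryTheory CategoryTheory.Limits AlgebraicGeometry TopologicalSpace Opposite

noncomputable section

namespace Fermat.Agent.Jacobian

/-- A base change over a pushout is a base change over the bottom rings. -/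
theorem isBaseChange_of_isPushout {R S A A' : Type u} [CommRing R] [CommRing S] [CommRing A]
    [CommRing A'] [Algebra R S] [Algebra R A] [Algebra R A'] [Algebra A A'] [Algebra S A']
    [IsScalarTower R A A'] [IsScalarTower R S A'] [Algebra.IsPushout R S A A']
    {M N : Type u} [AddCommGroup M] [Module R M] [Module A M] [IsScalarTower R A M]
    [AddCommGroup N] [Module R N] [Module S N] [IsScalarTower R S N] [Module A N] [Module A' N]
    [IsScalarTower A A' N] [IsScalarTower S A' N]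
    {f : M →ₗ[A] N} (hf : IsBaseChange A' f) (g : M →ₗ[R] N) (hg : ∀ m, g m = f m) :
    IsBaseChange S g := by
  refine IsBaseChange.of_equiv
    ((Algebra.IsPushout.cancelBaseChange R S A A' M).symm ≪≫ₗ hf.equiv.restrictScalars S)
    fun m => ?_
  rw [LinearEquiv.trans_apply, Algebra.IsPushout.cancelBaseChange_symm_tmul, map_one]
  exact (hf.equiv_tmul 1 m).trans ((one_smul _ _).trans (hg m).symm)

variable {X X' T T' : Scheme.{u}} {p : X ⟶ T} {p' : X' ⟶ T'} {q : X' ⟶ X} {b : T' ⟶ T}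

/-- The algebra of a morphism of bases. -/
@[reducible] def baseAlgebra (b : T' ⟶ T) : Algebra Γ(T, ⊤) Γ(T', ⊤) :=
  (b.appLE ⊤ ⊤ fun _ _ => trivial).hom.toAlgebra

/-- The sections upstairs as a module over the base downstairs. -/
@[reducible] def baseModule (b : T' ⟶ T) (p' : X' ⟶ T') (L' : LineSys X') (V' : X'.Opens) :
    Module Γ(T, ⊤) (SecOver p' L' V') :=
  Module.compHom (SecOver p' L' V') (b.appLE ⊤ ⊤ fun _ _ => trivial).hom

theorem baseModule_isScalarTower (b : T' ⟶ T) (p' : X' ⟶ T') (L' : LineSys X') (V' : X'.Opens) :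
    letI := baseAlgebra b
    letI := baseModule b p' L' V'
    IsScalarTower Γ(T, ⊤) Γ(T', ⊤) (SecOver p' L' V') :=
  letI := baseAlgebra b
  letI := baseModule b p' L' V'
  IsScalarTower.of_algebraMap_smul fun _ _ => rfl

/-- Inverse images of sections. -/
def pullMap (H : IsPullback q p' p b) (L : LineSys X) (V : X.Opens) :
    letI := baseModule b p' (L.pull q) (q ⁻¹ᵁ V)
    SecOver p L V →ₗ[Γ(T, ⊤)] SecOver p' (L.pull q) (q ⁻¹ᵁ V) :=
  letI := baseModule b p' (L.pull q) (q ⁻¹ᵁ V)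
  { toFun := fun s => secOverPull p (L := L) (p' := p') q b H.w (le_refl (q ⁻¹ᵁ V)) s
    map_add' := fun s t => map_add _ s t
    map_smul' := fun r s =>
      LinearMap.map_smulₛₗ (secOverPull p (L := L) (p' := p') q b H.w (le_refl (q ⁻¹ᵁ V))) r s }

/-- Sections on an affine open commute with base change. -/
theorem isBaseChange_pullMap [IsAffine T] [IsAffine T'] (H : IsPullback q p' p b) (L : LineSys X)
    {V : X.Opens} (hV : IsAffineOpen V) :
    letI := baseAlgebra b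
    letI := baseModule b p' (L.pull q) (q ⁻¹ᵁ V)
    haveI := baseModule_isScalarTower b p' (L.pull q) (q ⁻¹ᵁ V)
    IsBaseChange Γ(T', ⊤) (pullMap H L V) := by
  letI := baseAlgebra b
  letI := baseModule b p' (L.pull q) (q ⁻¹ᵁ V)
  haveI := baseModule_isScalarTower b p' (L.pull q) (q ⁻¹ᵁ V)
  letI : Algebra Γ(T, ⊤) Γ(X, V) := (baseHom p V).toAlgebra
  letI : Algebra Γ(X, V) Γ(X', q ⁻¹ᵁ V) := (q.appLE V (q ⁻¹ᵁ V) le_rfl).hom.toAlgebra
  letI : Algebra Γ(T', ⊤) Γ(X', q ⁻¹ᵁ V) := (baseHom p' (q ⁻¹ᵁ V)).toAlgebra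
  letI : Algebra Γ(T, ⊤) Γ(X', q ⁻¹ᵁ V) :=
    ((q.appLE V (q ⁻¹ᵁ V) le_rfl).hom.comp (baseHom p V)).toAlgebra
  haveI : IsScalarTower Γ(T, ⊤) Γ(X, V) Γ(X', q ⁻¹ᵁ V) := IsScalarTower.of_algebraMap_eq' rfl
  haveI : IsScalarTower Γ(T, ⊤) Γ(T', ⊤) Γ(X', q ⁻¹ᵁ V) :=
    IsScalarTower.of_algebraMap_eq fun r => appLE_baseHom H V r
  haveI : Algebra.IsPushout Γ(T, ⊤) Γ(T', ⊤) Γ(X, V) Γ(X', q ⁻¹ᵁ V) :=
    CommRingCat.isPushout_iff_isPushout.mp (isPushout_preimage H hV).flip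
  letI : Module Γ(X, V) (SecOver p L V) := inferInstanceAs (Module Γ(X, V) (L.Sec V))
  haveI : IsScalarTower Γ(T, ⊤) Γ(X, V) (SecOver p L V) :=
    IsScalarTower.of_algebraMap_smul fun _ _ => rfl
  letI : Module Γ(X', q ⁻¹ᵁ V) (SecOver p' (L.pull q) (q ⁻¹ᵁ V)) :=
    inferInstanceAs (Module Γ(X', q ⁻¹ᵁ V) ((L.pull q).Sec (q ⁻¹ᵁ V)))
  letI : Module Γ(X, V) (SecOver p' (L.pull q) (q ⁻¹ᵁ V)) :=
    LineSys.Sec.pullModule q (le_refl (q ⁻¹ᵁ V)) L
  haveI : IsScalarTower Γ(X, V) Γ(X', q ⁻¹ᵁ V) (SecOver p' (L.pull q) (q ⁻¹ᵁ V)) :=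
    IsScalarTower.of_algebraMap_smul fun _ _ => rfl
  haveI : IsScalarTower Γ(T', ⊤) Γ(X', q ⁻¹ᵁ V) (SecOver p' (L.pull q) (q ⁻¹ᵁ V)) :=
    IsScalarTower.of_algebraMap_smul fun _ _ => rfl
  let f' : SecOver p L V →ₗ[Γ(X, V)] SecOver p' (L.pull q) (q ⁻¹ᵁ V) :=
    LineSys.Sec.pullₗ q (le_refl (q ⁻¹ᵁ V)) L
  have hf' : IsBaseChange Γ(X', q ⁻¹ᵁ V) f' :=
    LineSys.Sec.isBaseChange_pull q hV (le_refl (q ⁻¹ᵁ V))
  exact isBaseChange_of_isPushout (A := Γ(X, V)) (A' := Γ(X', q ⁻¹ᵁ V))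
    (M := SecOver p L V) (N := SecOver p' (L.pull q) (q ⁻¹ᵁ V)) hf' (pullMap H L V) fun m => rfl

/-- The differential commutes with base change. -/
theorem cechD_pullMap (H : IsPullback q p' p b) (L : LineSys X) (U0 U1 : X.Opens)
    (z : SecOver p L U0 × SecOver p L U1) :
    pullMap H L (U0 ⊓ U1) (cechD p L U0 U1 z) =
      cechD p' (L.pull q) (q ⁻¹ᵁ U0) (q ⁻¹ᵁ U1)
        (pullMap H L U0 z.1, pullMap H L U1 z.2) := by
  letI := baseModule b p' (L.pull q) (q ⁻¹ᵁ (U0 ⊓ U1))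
  simp only [cechD, LinearMap.coprod_apply, LinearMap.neg_apply, map_add, map_neg]
  exact congrArg₂ (· + -·)
    (LineSys.Sec.pull_restrict q (e := le_refl (q ⁻¹ᵁ U0)) inf_le_left
      (fun _ hx => hx.1 : q ⁻¹ᵁ (U0 ⊓ U1) ≤ q ⁻¹ᵁ U0) le_rfl z.1)
    (LineSys.Sec.pull_restrict q (e := le_refl (q ⁻¹ᵁ U1)) inf_le_right
      (fun _ hx => hx.2 : q ⁻¹ᵁ (U0 ⊓ U1) ≤ q ⁻¹ᵁ U1) le_rfl z.2)

end Fermat.Agent.Jacobian
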