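/-
Euler characteristic and first cohomology of the fibres of a line system on a pair of charts.
-/
import Fermat.Agent.Jacobian.Cohom.PullComplex

set_option autoImplicit false
set_option linter.unusedVariables false
set_option linter.style.haveILetI false

universe u

open CategoryTheory CategoryTheory.Limits AlgebraicGeometry TopologicalSpace Opposite TensorProduct

noncomputable section

namespace Fermat.Agent.Jacobian

variable {X X' T T' : Scheme.{u}} {p : X ⟶ T} {p' : X' ⟶ T'} {q : X' ⟶ X} {b : T' ⟶ T}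

section Invariance

variable (p) {L L' : LineSys X}

/-- The cokernels of isomorphic systems agree. -/
def cechH1Map (e : LineSys.Iso L L') (U0 U1 : X.Opens) :
    CechH1 p L U0 U1 ≃ₗ[Γ(T, ⊤)] CechH1 p L' U0 U1 :=
  Submodule.Quotient.equiv _ _ (secOverMap p e (U0 ⊓ U1)) (by
    have key : ∀ z : SecOver p L U0 × SecOver p L U1,
        secOverMap p e (U0 ⊓ U1) (cechD p L U0 U1 z) =
          cechD p L' U0 U1 (secOverMap p e U0 z.1, secOverMap p e U1 z.2) := fun z => by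
      simp only [cechD, LinearMap.coprod_apply, LinearMap.neg_apply, map_add, map_neg,
        secOverMap_secRes]
    ext m
    constructor
    · rintro ⟨m', ⟨z, rfl⟩, rfl⟩
      exact ⟨_, (key z).symm⟩
    · rintro ⟨⟨z₀, z₁⟩, rfl⟩
      refine ⟨_, ⟨((secOverMap p e U0).symm z₀, (secOverMap p e U1).symm z₁), rfl⟩, ?_⟩
      refine (key _).trans ?_
      simp only [LinearEquiv.apply_symm_apply])

variable (L)

/-- An isomorphism from the chosen representative of the class of a system. -/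
def outIso : LineSys.Iso (LinePic.mk L).out L :=
  (LinePic.mk_eq_mk.mp (Quotient.out_eq (LinePic.mk L))).some

theorem h0_mk : h0 p (LinePic.mk L) = Module.finrank Γ(T, ⊤) (SecOver p L ⊤) :=
  (secOverMap p (outIso L) ⊤).finrank_eq

theorem h1_mk (U0 U1 : X.Opens) :
    h1 p U0 U1 (LinePic.mk L) = Module.finrank Γ(T, ⊤) (CechH1 p L U0 U1) :=
  (cechH1Map p (outIso L) U0 U1).finrank_eq

theorem chi_mk (U0 U1 : X.Opens) : chi p U0 U1 (LinePic.mk L) =
    (Module.finrank Γ(T, ⊤) (SecOver p L ⊤) : ℤ) - Module.finrank Γ(T, ⊤) (CechH1 p L U0 U1) := by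
  rw [chi, h0_mk, h1_mk]

end Invariance

/-- The point of the spectrum under a point of an affine scheme with a field of functions. -/
theorem isoSpec_eq_comap [IsAffine T] [IsAffine T'] (b : T' ⟶ T) (hK : IsField Γ(T', ⊤)) (x : T') :
    T.isoSpec.hom (b x) = PrimeSpectrum.comap (b.appLE ⊤ ⊤ fun _ _ => trivial).hom
      (haveI := hK.isDomain; (⊥ : PrimeSpectrum Γ(T', ⊤))) := by
  letI := hK.toField
  have h : T.isoSpec.hom (b x) = (Spec.map b.appTop) (T'.isoSpec.hom x) := by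
    rw [← Scheme.Hom.comp_apply, ← Scheme.Hom.comp_apply, Scheme.isoSpec_hom_naturality]
  rw [h]
  have e : b.appTop = b.appLE ⊤ ⊤ fun _ _ => trivial := (Scheme.Hom.appLE_eq_app b).symm
  rw [e]
  exact congrArg (PrimeSpectrum.comap _) (Subsingleton.elim _ _)

/-- Vanishing of a base change to a field, read on the support. -/
theorem subsingleton_iff_notMem_support {B K M MK : Type u} [CommRing B] [Field K] [Algebra B K]
    [AddCommGroup M] [Module B M] [Module.Finite B M] [AddCommGroup MK] [Module B MK] [Module K MK]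
    [IsScalarTower B K MK] {f : M →ₗ[B] MK} (hf : IsBaseChange K f) :
    Subsingleton MK ↔ PrimeSpectrum.comap (algebraMap B K) ⊥ ∉ Module.support B M := by
  set P := PrimeSpectrum.comap (algebraMap B K) ⊥
  have hP : P.asIdeal = RingHom.ker (algebraMap B K) := rfl
  letI : Algebra P.asIdeal.ResidueField K :=
    (Ideal.ResidueField.lift P.asIdeal (algebraMap B K) hP.le fun r hr => by
      refine isUnit_iff_ne_zero.mpr fun h0 => hr ?_
      rw [SetLike.mem_coe, hP]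
      exact h0).toAlgebra
  haveI : IsScalarTower B P.asIdeal.ResidueField K :=
    IsScalarTower.of_algebraMap_eq fun r =>
      (Ideal.ResidueField.lift_algebraMap P.asIdeal (algebraMap B K) hP.le _ r).symm
  let e := (AlgebraTensorModule.cancelBaseChange B P.asIdeal.ResidueField K K M).trans hf.equiv
  rw [← e.subsingleton_congr, Module.mem_support_iff_nontrivial_residueField_tensorProduct,
    not_nontrivial_iff_subsingleton,
    Module.FaithfullyFlat.subsingleton_tensorProduct_iff_right]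

namespace TwoChart

variable [IsAffine T] (M : TwoChart p) (L : LineSys X)

/-- The Euler characteristic of the fibres, as a function on the base. -/
def chiFun (t : T) : ℤ := (M.isPerfect_cechD L).chiFun (T.isoSpec.hom t)

theorem isLocallyConstant_chiFun : IsLocallyConstant (M.chiFun L) :=
  (M.isPerfect_cechD L).isLocallyConstant_chiFun.comp_continuous T.isoSpec.hom.continuous

/-- The locus where the first cohomology of the fibre vanishes. -/
def vanishingLocus : Set T :=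
  T.isoSpec.hom ⁻¹' (Module.support Γ(T, ⊤) (CechH1 p L M.U0 M.U1))ᶜ

theorem isOpen_vanishingLocus : IsOpen (M.vanishingLocus L) := by
  haveI := M.finite_cechH1 L
  refine IsOpen.preimage T.isoSpec.hom.continuous (isOpen_compl_iff.mpr ?_)
  exact (Module.support_eq_zeroLocus (R := Γ(T, ⊤)) (M := CechH1 p L M.U0 M.U1)).symm ▸
    PrimeSpectrum.isClosed_zeroLocus _

/-- The complex is surjective if the first cohomology vanishes on every fibre. -/
theorem surjective_cechD_of_vanishingLocus (h : M.vanishingLocus L = Set.univ) :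
    Function.Surjective (cechD p L M.U0 M.U1) := by
  rw [← LinearMap.range_eq_top, ← Submodule.Quotient.subsingleton_iff,
    ← Module.support_eq_empty_iff (R := Γ(T, ⊤)), Set.eq_empty_iff_forall_notMem]
  intro P
  obtain ⟨t, rfl⟩ : ∃ t, T.isoSpec.hom t = P := ⟨(T.isoSpec.inv : _ → T) (P : (Spec Γ(T, ⊤) :)), by
    exact (Scheme.Hom.comp_apply _ _ _).symm.trans (by rw [Iso.inv_hom_id]; rfl)⟩
  exact Set.eq_univ_iff_forall.mp h t

omit [IsAffine T] in
/-- Without first cohomology the sections are finite projective. -/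
theorem finite_projective_sec (h : Function.Surjective (cechD p L M.U0 M.U1)) :
    Module.Finite Γ(T, ⊤) (SecOver p L ⊤) ∧ Module.Projective Γ(T, ⊤) (SecOver p L ⊤) := by
  haveI := M.projective_sec0 L
  haveI := M.projective_sec1 L
  obtain ⟨h1, h2⟩ := (M.isPerfect_cechD L).ker_of_surjective h
  exact ⟨Module.Finite.equiv (M.globalEquiv L).symm,
    Module.Projective.of_equiv (M.globalEquiv L).symm⟩

variable [IsAffine T'] (H : IsPullback q p' p b)

/-- Inverse images of the sections on the overlap. -/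
def pullMap01 :
    letI := baseModule b p' (L.pull q) (q ⁻¹ᵁ M.U0 ⊓ q ⁻¹ᵁ M.U1)
    SecOver p L (M.U0 ⊓ M.U1) →ₗ[Γ(T, ⊤)] SecOver p' (L.pull q) (q ⁻¹ᵁ M.U0 ⊓ q ⁻¹ᵁ M.U1) :=
  pullMap H L (M.U0 ⊓ M.U1)

theorem isBaseChange_pullMap01 :
    letI := baseAlgebra b
    letI := baseModule b p' (L.pull q) (q ⁻¹ᵁ M.U0 ⊓ q ⁻¹ᵁ M.U1)
    haveI := baseModule_isScalarTower b p' (L.pull q) (q ⁻¹ᵁ M.U0 ⊓ q ⁻¹ᵁ M.U1)
    IsBaseChange Γ(T', ⊤) (pullMap01 M L H) :=
  isBaseChange_pullMap H L M.isAffine01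

theorem isBaseChange_pullMap_prod :
    letI := baseAlgebra b
    letI := baseModule b p' (L.pull q) (q ⁻¹ᵁ M.U0)
    letI := baseModule b p' (L.pull q) (q ⁻¹ᵁ M.U1)
    haveI := baseModule_isScalarTower b p' (L.pull q) (q ⁻¹ᵁ M.U0)
    haveI := baseModule_isScalarTower b p' (L.pull q) (q ⁻¹ᵁ M.U1)
    IsBaseChange Γ(T', ⊤) ((pullMap H L M.U0).prodMap (pullMap H L M.U1)) := by
  letI := baseAlgebra b
  letI := baseModule b p' (L.pull q) (q ⁻¹ᵁ M.U0)
  letI := baseModule b p' (L.pull q) (q ⁻¹ᵁ M.U1)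
  haveI := baseModule_isScalarTower b p' (L.pull q) (q ⁻¹ᵁ M.U0)
  haveI := baseModule_isScalarTower b p' (L.pull q) (q ⁻¹ᵁ M.U1)
  exact IsBaseChange.prodMap _ _ (isBaseChange_pullMap H L M.isAffine0)
    (isBaseChange_pullMap H L M.isAffine1)

include H in
/-- The Euler characteristic of a fibre. -/
theorem chi_fibre (hK : IsField Γ(T', ⊤)) (x : T') :
    Module.Finite Γ(T', ⊤) (SecOver p' (L.pull q) ⊤) ∧
      Module.Finite Γ(T', ⊤) (CechH1 p' (L.pull q) (q ⁻¹ᵁ M.U0) (q ⁻¹ᵁ M.U1)) ∧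
        chi p' (q ⁻¹ᵁ M.U0) (q ⁻¹ᵁ M.U1) (LinePic.mk (L.pull q)) = M.chiFun L (b x) := by
  letI := hK.toField
  letI := baseAlgebra b
  letI := baseModule b p' (L.pull q) (q ⁻¹ᵁ M.U0)
  letI := baseModule b p' (L.pull q) (q ⁻¹ᵁ M.U1)
  letI := baseModule b p' (L.pull q) (q ⁻¹ᵁ M.U0 ⊓ q ⁻¹ᵁ M.U1)
  haveI := baseModule_isScalarTower b p' (L.pull q) (q ⁻¹ᵁ M.U0)
  haveI := baseModule_isScalarTower b p' (L.pull q) (q ⁻¹ᵁ M.U1)
  haveI := baseModule_isScalarTower b p' (L.pull q) (q ⁻¹ᵁ M.U0 ⊓ q ⁻¹ᵁ M.U1)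
  obtain ⟨f0, f1, e⟩ := IsPerfect.chi_fibre (M.isPerfect_cechD L)
    (dK := (cechD p' (L.pull q) (q ⁻¹ᵁ M.U0) (q ⁻¹ᵁ M.U1) :
      _ →ₗ[Γ(T', ⊤)] SecOver p' (L.pull q) (q ⁻¹ᵁ M.U0 ⊓ q ⁻¹ᵁ M.U1)))
    (fK := (pullMap H L M.U0).prodMap (pullMap H L M.U1)) (gK := pullMap01 M L H)
    (cechD_pullMap H L M.U0 M.U1) (M.isBaseChange_pullMap_prod L H)
    (M.isBaseChange_pullMap01 L H)
  let g := (M.baseChange H).globalEquiv (L.pull q)
  refine ⟨Module.Finite.equiv g.symm, f1, ?_⟩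
  rw [chi_mk, g.finrank_eq, chiFun, isoSpec_eq_comap b hK x]
  exact e

include H in
/-- The first cohomology of a fibre. -/
theorem h1_fibre_eq_zero_iff (hK : IsField Γ(T', ⊤)) (x : T') :
    h1 p' (q ⁻¹ᵁ M.U0) (q ⁻¹ᵁ M.U1) (LinePic.mk (L.pull q)) = 0 ↔
      b x ∈ M.vanishingLocus L := by
  letI := hK.toField
  letI := baseAlgebra b
  letI := baseModule b p' (L.pull q) (q ⁻¹ᵁ M.U0)
  letI := baseModule b p' (L.pull q) (q ⁻¹ᵁ M.U1)
  letI := baseModule b p' (L.pull q) (q ⁻¹ᵁ M.U0 ⊓ q ⁻¹ᵁ M.U1)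
  haveI := baseModule_isScalarTower b p' (L.pull q) (q ⁻¹ᵁ M.U0)
  haveI := baseModule_isScalarTower b p' (L.pull q) (q ⁻¹ᵁ M.U1)
  haveI := baseModule_isScalarTower b p' (L.pull q) (q ⁻¹ᵁ M.U0 ⊓ q ⁻¹ᵁ M.U1)
  haveI := M.finite_cechH1 L
  have hb := isBaseChange_cokerMap
    (d' := (cechD p' (L.pull q) (q ⁻¹ᵁ M.U0) (q ⁻¹ᵁ M.U1) :
      _ →ₗ[Γ(T', ⊤)] SecOver p' (L.pull q) (q ⁻¹ᵁ M.U0 ⊓ q ⁻¹ᵁ M.U1)))
    (f := (pullMap H L M.U0).prodMap (pullMap H L M.U1)) (g := pullMap01 M L H)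
    (cechD_pullMap H L M.U0 M.U1) (M.isBaseChange_pullMap_prod L H)
    (M.isBaseChange_pullMap01 L H)
  haveI : Module.Finite Γ(T', ⊤) (CechH1 p' (L.pull q) (q ⁻¹ᵁ M.U0) (q ⁻¹ᵁ M.U1)) :=
    Module.Finite.equiv hb.equiv
  rw [h1_mk, Module.finrank_zero_iff, vanishingLocus, Set.mem_preimage,
    isoSpec_eq_comap b hK x]
  exact subsingleton_iff_notMem_support hb

include H in
/-- Without first cohomology the sections commute with base change and have no first cohomology. -/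
theorem surjective_cechD_pull (h : Function.Surjective (cechD p L M.U0 M.U1)) :
    Function.Surjective (cechD p' (L.pull q) (q ⁻¹ᵁ M.U0) (q ⁻¹ᵁ M.U1)) := by
  letI := baseAlgebra b
  letI := baseModule b p' (L.pull q) (q ⁻¹ᵁ M.U0)
  letI := baseModule b p' (L.pull q) (q ⁻¹ᵁ M.U1)
  letI := baseModule b p' (L.pull q) (q ⁻¹ᵁ M.U0 ⊓ q ⁻¹ᵁ M.U1)
  haveI := baseModule_isScalarTower b p' (L.pull q) (q ⁻¹ᵁ M.U0)
  haveI := baseModule_isScalarTower b p' (L.pull q) (q ⁻¹ᵁ M.U1)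
  haveI := baseModule_isScalarTower b p' (L.pull q) (q ⁻¹ᵁ M.U0 ⊓ q ⁻¹ᵁ M.U1)
  exact surjective_of_isBaseChange
    (d' := (cechD p' (L.pull q) (q ⁻¹ᵁ M.U0) (q ⁻¹ᵁ M.U1) :
      _ →ₗ[Γ(T', ⊤)] SecOver p' (L.pull q) (q ⁻¹ᵁ M.U0 ⊓ q ⁻¹ᵁ M.U1)))
    (f := (pullMap H L M.U0).prodMap (pullMap H L M.U1)) (g := pullMap01 M L H)
    (cechD_pullMap H L M.U0 M.U1) (M.isBaseChange_pullMap01 L H) h

include M in
/-- Without first cohomology global sections commute with base change. -/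
theorem isBaseChange_pullMap_top (h : Function.Surjective (cechD p L M.U0 M.U1)) :
    letI := baseAlgebra b
    letI := baseModule b p' (L.pull q) (q ⁻¹ᵁ ⊤)
    haveI := baseModule_isScalarTower b p' (L.pull q) (q ⁻¹ᵁ ⊤)
    IsBaseChange Γ(T', ⊤) (pullMap H L ⊤) := by
  letI := baseAlgebra b
  letI := baseModule b p' (L.pull q) (q ⁻¹ᵁ ⊤)
  letI := baseModule b p' (L.pull q) (q ⁻¹ᵁ M.U0)
  letI := baseModule b p' (L.pull q) (q ⁻¹ᵁ M.U1)
  letI := baseModule b p' (L.pull q) (q ⁻¹ᵁ M.U0 ⊓ q ⁻¹ᵁ M.U1)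
  haveI := baseModule_isScalarTower b p' (L.pull q) (q ⁻¹ᵁ ⊤)
  haveI := baseModule_isScalarTower b p' (L.pull q) (q ⁻¹ᵁ M.U0)
  haveI := baseModule_isScalarTower b p' (L.pull q) (q ⁻¹ᵁ M.U1)
  haveI := baseModule_isScalarTower b p' (L.pull q) (q ⁻¹ᵁ M.U0 ⊓ q ⁻¹ᵁ M.U1)
  haveI := M.projective_sec01 L
  let d' : SecOver p' (L.pull q) (q ⁻¹ᵁ M.U0) × SecOver p' (L.pull q) (q ⁻¹ᵁ M.U1) →ₗ[Γ(T', ⊤)]
      SecOver p' (L.pull q) (q ⁻¹ᵁ M.U0 ⊓ q ⁻¹ᵁ M.U1) :=
    cechD p' (L.pull q) (q ⁻¹ᵁ M.U0) (q ⁻¹ᵁ M.U1)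
  have hk := isBaseChange_kerMap (d' := d')
    (f := (pullMap H L M.U0).prodMap (pullMap H L M.U1)) (g := pullMap01 M L H)
    (cechD_pullMap H L M.U0 M.U1) (M.isBaseChange_pullMap_prod L H)
    (M.isBaseChange_pullMap01 L H) h
  let e' : LinearMap.ker d' ≃ₗ[Γ(T', ⊤)] SecOver p' (L.pull q) (q ⁻¹ᵁ ⊤) :=
    ((M.baseChange H).globalEquiv (L.pull q)).symm
  refine (IsBaseChange.iff_of_equiv_comm (M.globalEquiv L).symm e' (LinearMap.ext fun z => ?_)).mp hk
  obtain ⟨s, rfl⟩ := (M.globalEquiv L).surjective z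
  simp only [LinearMap.comp_apply, LinearEquiv.coe_coe, LinearEquiv.symm_apply_apply,
    e']
  refine ((M.baseChange H).globalEquiv (L.pull q)).injective ?_
  refine Eq.trans (Subtype.ext (Prod.ext ?_ ?_)) (LinearEquiv.apply_symm_apply _ _).symm
  · exact (LineSys.Sec.pull_restrict q (e := le_refl (q ⁻¹ᵁ (⊤ : X.Opens))) le_top
      (le_top : q ⁻¹ᵁ M.U0 ≤ ⊤) le_rfl s).symm
  · exact (LineSys.Sec.pull_restrict q (e := le_refl (q ⁻¹ᵁ (⊤ : X.Opens))) le_top
      (le_top : q ⁻¹ᵁ M.U1 ≤ ⊤) le_rfl s).symm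

end TwoChart

end Fermat.Agent.Jacobian
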