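/-
Functions on the base change of a proper integral curve come from the base.
-/
import Fermat.Agent.Jacobian.Cohom.Fibres
import Fermat.Agent.Jacobian.Core.Defs

set_option autoImplicit false
set_option linter.unusedVariables false
set_option linter.style.haveILetI false

universe u

open CategoryTheory CategoryTheory.Limits AlgebraicGeometry AlgebraicGeometry.RelPicard
  TopologicalSpace Opposite TensorProduct NeronModelInfra

noncomputable section

namespace Fermat.Agent.Jacobian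

/-- The pullback of the trivial system is trivial. -/
def pullTrivIso {X X' : Scheme.{u}} (q : X' ⟶ X) :
    LineSys.Iso ((LineSys.triv X).pull q) (LineSys.triv X') where
  h _ _ _ _ _ := 1
  h_res _ _ _ _ _ _ _ := map_one _
  g_h x y a V hx hy ha := by
    show appU q _ 1 * 1 = 1
    rw [map_one, mul_one]
  h_g _ _ _ _ _ _ _ := mul_one _

theorem isImage_pullTrivIso {X X' : Scheme.{u}} (q : X' ⟶ X) {V : X.Opens} {V' : X'.Opens}
    (e : V' ≤ q ⁻¹ᵁ V) :
    LineSys.Sec.IsImage (pullTrivIso q) ((LineSys.trivSec X V).pull q e) (LineSys.trivSec X' V') :=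
  fun x a W hW hx ha => by
    rw [LineSys.Sec.pull_trivSec_coord]
    exact (one_mul (1 : Γ(X', W))).symm

theorem secMap_pull_trivSec {X X' : Scheme.{u}} (q : X' ⟶ X) {V : X.Opens} {V' : X'.Opens}
    (e : V' ≤ q ⁻¹ᵁ V) :
    (pullTrivIso q).secMap V' ((LineSys.trivSec X V).pull q e) = LineSys.trivSec X' V' :=
  (pullTrivIso q).secMap_eq_of_isImage (isImage_pullTrivIso q e)

namespace TwoChart

variable {X X' T T' : Scheme.{u}} {p : X ⟶ T} {p' : X' ⟶ T'} {q : X' ⟶ X} {b : T' ⟶ T}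
  [IsAffine T] [IsAffine T'] (M : TwoChart p) (L : LineSys X) (H : IsPullback q p' p b)

include M in
/-- Global sections commute with flat base change. -/
theorem isBaseChange_pullMap_top_of_flat
    (hflat : letI := baseAlgebra b; Module.Flat Γ(T, ⊤) Γ(T', ⊤)) :
    letI := baseAlgebra b
    letI := baseModule b p' (L.pull q) (q ⁻¹ᵁ ⊤)
    haveI := baseModule_isScalarTower b p' (L.pull q) (q ⁻¹ᵁ ⊤)
    IsBaseChange Γ(T', ⊤) (pullMap H L ⊤) := by
  letI := baseAlgebra b
  letI := baseModule b p' (L.pull q) (q ⁻¹ᵁ ⊤)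
  letI := baseModule b p' (L.pull q) (q ⁻¹ᵁ M.U0)
  letI := baseModule b p' (L.pull q) (q ⁻¹ᵁ M.U1)
  letI := baseModule b p' (L.pull q) (q ⁻¹ᵁ M.U0 ⊓ q ⁻¹ᵁ M.U1)
  haveI := baseModule_isScalarTower b p' (L.pull q) (q ⁻¹ᵁ ⊤)
  haveI := baseModule_isScalarTower b p' (L.pull q) (q ⁻¹ᵁ M.U0)
  haveI := baseModule_isScalarTower b p' (L.pull q) (q ⁻¹ᵁ M.U1)
  haveI := baseModule_isScalarTower b p' (L.pull q) (q ⁻¹ᵁ M.U0 ⊓ q ⁻¹ᵁ M.U1)
  haveI := hflat
  let d' : SecOver p' (L.pull q) (q ⁻¹ᵁ M.U0) × SecOver p' (L.pull q) (q ⁻¹ᵁ M.U1) →ₗ[Γ(T', ⊤)]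
      SecOver p' (L.pull q) (q ⁻¹ᵁ M.U0 ⊓ q ⁻¹ᵁ M.U1) :=
    cechD p' (L.pull q) (q ⁻¹ᵁ M.U0) (q ⁻¹ᵁ M.U1)
  let e' : SecOver p' (L.pull q) (q ⁻¹ᵁ ⊤) ≃ₗ[Γ(T', ⊤)] LinearMap.ker d' :=
    (M.baseChange H).globalEquiv (L.pull q)
  refine IsBaseChange.of_left_exact Γ(T', ⊤) (pullMap H L ⊤)
    ((pullMap H L M.U0).prodMap (pullMap H L M.U1)) (M.pullMap01 L H)
    (f := (LinearMap.ker (cechD p L M.U0 M.U1)).subtype.comp (M.globalEquiv L).toLinearMap)
    (g := cechD p L M.U0 M.U1)
    (f' := (LinearMap.ker d').subtype.comp e'.toLinearMap) (g' := d')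
    (LinearMap.ext fun s => ?_) (LinearMap.ext (cechD_pullMap H L M.U0 M.U1))
    (M.isBaseChange_pullMap_prod L H) (M.isBaseChange_pullMap01 L H) ?_ ?_ ?_ ?_
  · refine Prod.ext ?_ ?_
    · exact LineSys.Sec.pull_restrict q (e := le_refl (q ⁻¹ᵁ (⊤ : X.Opens))) le_top
        (fun _ _ => trivial : q ⁻¹ᵁ M.U0 ≤ q ⁻¹ᵁ ⊤) le_rfl s
    · exact LineSys.Sec.pull_restrict q (e := le_refl (q ⁻¹ᵁ (⊤ : X.Opens))) le_top
        (fun _ _ => trivial : q ⁻¹ᵁ M.U1 ≤ q ⁻¹ᵁ ⊤) le_rfl s
  · exact (LinearEquiv.conj_exact_iff_exact _ _ (LinearEquiv.refl _ _)).mp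
      (by
        rw [LinearMap.exact_iff]
        simp [LinearMap.range_comp])
  · exact Subtype.val_injective.comp (M.globalEquiv L).injective
  · rw [LinearMap.exact_iff, LinearMap.range_comp, LinearEquiv.range, Submodule.map_top,
      Submodule.range_subtype]
  · exact Subtype.val_injective.comp e'.injective

variable {M H}

/-- If the functions upstairs are the functions of the base, they are so after flat base change. -/
theorem bijective_baseHom_pullback
    (hflat : letI := baseAlgebra b; Module.Flat Γ(T, ⊤) Γ(T', ⊤)) (M : TwoChart p)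
    (H : IsPullback q p' p b) (h : Function.Bijective (baseHom p ⊤)) :
    Function.Bijective (baseHom p' ⊤) := by
  letI := baseAlgebra b
  letI := baseModule b p' ((LineSys.triv X).pull q) (q ⁻¹ᵁ ⊤)
  haveI := baseModule_isScalarTower b p' ((LineSys.triv X).pull q) (q ⁻¹ᵁ ⊤)
  let one : SecOver p (LineSys.triv X) ⊤ := LineSys.trivSec X ⊤
  let e₀ : Γ(T, ⊤) →ₗ[Γ(T, ⊤)] SecOver p (LineSys.triv X) ⊤ := LinearMap.toSpanSingleton _ _ one
  have he₀ : Function.Bijective e₀ := by
    have : ⇑e₀ = (secOverTriv p (⊤ : X.Opens)).symm ∘ baseHom p ⊤ := by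
      funext r
      refine (secOverTriv p (⊤ : X.Opens)).injective ?_
      rw [Function.comp_apply, LinearEquiv.apply_symm_apply]
      show LineSys.trivEquiv ⊤ (baseHom p ⊤ r • LineSys.trivSec X ⊤) = _
      rw [map_smul, LineSys.trivEquiv_trivSec, smul_eq_mul, mul_one]
    rw [this]
    exact (secOverTriv p (⊤ : X.Opens)).symm.bijective.comp h
  let g := (pullMap H (LineSys.triv X) ⊤).comp (LinearEquiv.ofBijective e₀ he₀).toLinearMap
  have hg : IsBaseChange Γ(T', ⊤) g :=
    IsBaseChange.comp_equiv _ _ (M.isBaseChange_pullMap_top_of_flat _ H hflat)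
  let one' : SecOver p' ((LineSys.triv X).pull q) (q ⁻¹ᵁ ⊤) := pullMap H (LineSys.triv X) ⊤ one
  have key : ⇑(LinearMap.toSpanSingleton Γ(T', ⊤) _ one') =
      hg.equiv ∘ (IsBaseChange.linearMap Γ(T, ⊤) Γ(T', ⊤)).equiv.symm := by
    funext z
    obtain ⟨w, rfl⟩ := (IsBaseChange.linearMap Γ(T, ⊤) Γ(T', ⊤)).equiv.surjective z
    rw [Function.comp_apply, LinearEquiv.symm_apply_apply]
    induction w with
    | zero => simp only [map_zero]
    | tmul s r =>
      rw [IsBaseChange.equiv_tmul, IsBaseChange.equiv_tmul]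
      show (s • algebraMap Γ(T, ⊤) Γ(T', ⊤) r) • one' =
        s • (pullMap H (LineSys.triv X) ⊤) (r • one)
      rw [map_smul, smul_assoc, algebraMap_smul]
    | add a b ha hb => simp only [map_add, ha, hb]
  have hbij : Function.Bijective (LinearMap.toSpanSingleton Γ(T', ⊤) _ one') := by
    rw [key]
    exact hg.equiv.bijective.comp (LinearEquiv.bijective _)
  let τ : SecOver p' ((LineSys.triv X).pull q) (q ⁻¹ᵁ ⊤) → Γ(X', q ⁻¹ᵁ ⊤) := fun s =>
    LineSys.trivEquiv (q ⁻¹ᵁ ⊤) ((pullTrivIso q).secMap (q ⁻¹ᵁ ⊤) s)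
  have hτ : Function.Bijective τ :=
    (LineSys.trivEquiv (q ⁻¹ᵁ ⊤)).bijective.comp ((pullTrivIso q).secMap (q ⁻¹ᵁ ⊤)).bijective
  have : ⇑(baseHom p' ⊤) = τ ∘ LinearMap.toSpanSingleton Γ(T', ⊤) _ one' := by
    funext r
    show _ = LineSys.trivEquiv _ ((pullTrivIso q).secMap _ (baseHom p' (q ⁻¹ᵁ ⊤) r •
      (LineSys.trivSec X ⊤).pull q le_rfl))
    rw [map_smul, map_smul, secMap_pull_trivSec, LineSys.trivEquiv_trivSec, smul_eq_mul, mul_one]
    rfl
  rw [this]
  exact hτ.comp hbij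

end TwoChart

variable {k : Type u} [Field k] {C : Scheme.{u}} {c : C ⟶ Spec (CommRingCat.of k)}
  {ε : SchemeHomOver (𝟙 (Spec (CommRingCat.of k))) c}

theorem isField_Γ_spec (K : Type u) [Field K] : IsField Γ(Spec (CommRingCat.of K), ⊤) :=
  MulEquiv.isField (Field.toIsField K)
    (Scheme.ΓSpecIso (CommRingCat.of K)).commRingCatIsoToRingEquiv.toMulEquiv

theorem flat_baseAlgebra_spec {T : Scheme.{u}} (t : T ⟶ Spec (CommRingCat.of k)) :
    letI := baseAlgebra t
    Module.Flat Γ(Spec (CommRingCat.of k), ⊤) Γ(T, ⊤) :=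
  letI := (isField_Γ_spec k).toField
  letI := baseAlgebra t
  inferInstance

/-- A proper integral curve over an algebraically closed field has only constant functions. -/
theorem bijective_baseHom_top [IsAlgClosed k] [IsIntegral C] [IsProper c] :
    Function.Bijective (baseHom c ⊤) := by
  have hint : c.appTop.hom.IsIntegral := isIntegral_appTop_of_universallyClosed c
  have e : baseHom c ⊤ = c.appTop.hom :=
    congrArg CommRingCat.Hom.hom (Scheme.Hom.appLE_eq_app c)
  let σ := (Scheme.ΓSpecIso (CommRingCat.of k)).commRingCatIsoToRingEquiv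
  letI : Algebra k Γ(C, ⊤) := (c.appTop.hom.comp σ.symm.toRingHom).toAlgebra
  haveI : Algebra.IsIntegral k Γ(C, ⊤) :=
    ⟨RingHom.IsIntegral.trans σ.symm.toRingHom c.appTop.hom
      (σ.symm.toRingHom.isIntegral_of_surjective σ.symm.surjective) hint⟩
  have hb := IsAlgClosed.algebraMap_bijective_of_isIntegral (k := k) (K := Γ(C, ⊤))
  have : ⇑(baseHom c ⊤) = algebraMap k Γ(C, ⊤) ∘ σ := by
    funext a
    rw [e]
    exact (congrArg c.appTop.hom (σ.symm_apply_apply a)).symm
  rw [this]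
  exact hb.comp σ.bijective

/-- Functions on `C_T` come from `T`. -/
theorem CurveModel.globalUnits [IsAlgClosed k] [IsIntegral C] [IsProper c]
    (M : CurveModel c ε) : GlobalUnits c := by
  intro T t
  let f := pullback.snd c t
  have hloc : ∀ W : T.Opens, IsAffineOpen W → Function.Bijective (f.app W).hom := by
    intro W hW
    haveI : IsAffine W.toScheme := hW
    have H : IsPullback ((f ⁻¹ᵁ W).ι ≫ pullback.fst c t) (f ∣_ W) c (W.ι ≫ t) :=
      ((isPullback_morphismRestrict f W).flip).paste_horiz (IsPullback.of_hasPullback c t)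
    have h := TwoChart.bijective_baseHom_pullback (flat_baseAlgebra_spec _) M.toTwoChart H
      bijective_baseHom_top
    have e : baseHom (f ∣_ W) ⊤ = (f ∣_ W).appTop.hom :=
      congrArg CommRingCat.Hom.hom (Scheme.Hom.appLE_eq_app (f ∣_ W))
    rw [e, morphismRestrict_appTop] at h
    replace h : Function.Bijective (((pullback c t).presheaf.map
        (eqToHom (image_morphismRestrict_preimage f W ⊤)).op).hom ∘ (f.app (W.ι ''ᵁ ⊤)).hom) := h
    have key : ∀ V : T.Opens, V = W → Function.Bijective (f.app V).hom →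
        Function.Bijective (f.app W).hom := by
      rintro V rfl hV
      exact hV
    exact key _ (Scheme.Opens.ι_image_top W) ((Function.Bijective.of_comp_iff'
      (ConcreteCategory.bijective_of_isIso ((pullback c t).presheaf.map _)) _).mp h)
  let U : {W : T.Opens // IsAffineOpen W} → T.Opens := Subtype.val
  have hU : (⊤ : T.Opens) ≤ iSup U := fun x _ => by
    obtain ⟨W, hW, hxW, -⟩ := exists_isAffineOpen_mem_and_subset (U := ⊤) (x := x) trivial
    exact Opens.mem_iSup.mpr ⟨⟨W, hW⟩, hxW⟩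
  have hU' : f ⁻¹ᵁ ⊤ ≤ iSup fun i => f ⁻¹ᵁ U i := fun x hx => by
    obtain ⟨i, hi⟩ := Opens.mem_iSup.mp (hU (hx : f x ∈ (⊤ : T.Opens)))
    exact Opens.mem_iSup.mpr ⟨i, hi⟩
  have hres : ∀ {V W : T.Opens} (h : W ≤ V) (a : Γ(T, V)),
      res (show f ⁻¹ᵁ W ≤ f ⁻¹ᵁ V from fun _ hx => h hx) (f.app V a) = f.app W (res h a) := by
    intro V W h a
    show (pullback c t).presheaf.map _ (f.app V a) = f.app W (T.presheaf.map _ a)
    rw [← ConcreteCategory.comp_apply, ← ConcreteCategory.comp_apply, Scheme.Hom.naturality]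
    rfl
  refine ⟨fun a a' h => T.sheaf.eq_of_locally_eq' U ⊤ (fun i => homOfLE le_top) hU _ _ fun i =>
    (hloc (U i) i.2).1 ?_, fun s => ?_⟩
  · show f.app (U i) (res le_top a) = f.app (U i) (res le_top a')
    rw [← hres le_top, ← hres le_top]
    exact congrArg _ h
  · choose r hr using fun i : {W : T.Opens // IsAffineOpen W} =>
      (hloc (U i) i.2).2 (res (show f ⁻¹ᵁ U i ≤ f ⁻¹ᵁ ⊤ from fun _ _ => trivial) s)
    have hinj : ∀ V : T.Opens, ∀ a a' : Γ(T, V), f.app V a = f.app V a' → a = a' := by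
      intro V a a' h
      let V' : {W : T.Opens // IsAffineOpen W ∧ W ≤ V} → T.Opens := Subtype.val
      refine T.sheaf.eq_of_locally_eq' V' V (fun i => homOfLE i.2.2) (fun x hx => ?_) _ _ fun i =>
        (hloc (V' i) i.2.1).1 ?_
      · obtain ⟨W, hW, hxW, hWV⟩ := exists_isAffineOpen_mem_and_subset hx
        exact Opens.mem_iSup.mpr ⟨⟨W, hW, hWV⟩, hxW⟩
      · show f.app (V' i) (res i.2.2 a) = f.app (V' i) (res i.2.2 a')
        rw [← hres, ← hres, h]
    obtain ⟨a, ha, -⟩ := T.sheaf.existsUnique_gluing' U ⊤ (fun i => homOfLE le_top) hU r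
      fun i j => hinj _ _ _ (by
        show f.app (U i ⊓ U j) (res inf_le_left (r i)) = f.app (U i ⊓ U j) (res inf_le_right (r j))
        rw [← hres, ← hres]
        show res _ ((f.app (U i)).hom (r i)) = res _ ((f.app (U j)).hom (r j))
        rw [hr, hr, res_res, res_res])
    refine ⟨a, (pullback c t).sheaf.eq_of_locally_eq' _ (f ⁻¹ᵁ ⊤)
      (fun i => homOfLE (show f ⁻¹ᵁ U i ≤ f ⁻¹ᵁ ⊤ from fun _ _ => trivial)) hU' _ _ fun i => ?_⟩
    show res _ (f.app ⊤ a) = res _ s
    refine (hres le_top a).trans ?_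
    exact (congrArg (fun z => (f.app (U i)).hom z) (ha i)).trans (hr i)

end Fermat.Agent.Jacobian
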