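/-
The Euler characteristic of the fibres of a family is locally constant; invariants of the trivial
class.
-/
import Fermat.Agent.Jacobian.Cohom.Units
import Fermat.Agent.Jacobian.Core.Targets

set_option autoImplicit false
set_option linter.unusedVariables false
set_option linter.style.haveILetI false

universe u

open CategoryTheory CategoryTheory.Limits AlgebraicGeometry AlgebraicGeometry.RelPicard
  TopologicalSpace Opposite TensorProduct NeronModelInfra

noncomputable section

namespace Fermat.Agent.Jacobian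

variable {k : Type u} [Field k] {C : Scheme.{u}} {c : C ⟶ Spec (CommRingCat.of k)}
  {ε : SchemeHomOver (𝟙 (Spec (CommRingCat.of k))) c}

theorem baseChangeSnd_fst {T T' : Scheme.{u}} {t : T ⟶ Spec (CommRingCat.of k)}
    {t' : T' ⟶ Spec (CommRingCat.of k)} (ψ : SchemeHomOver t' t) :
    baseChangeSnd c ψ ≫ pullback.fst c t = pullback.fst c t' :=
  (pullback.lift_fst _ _ _).trans (Category.comp_id _)

theorem baseChangeSnd_snd {T T' : Scheme.{u}} {t : T ⟶ Spec (CommRingCat.of k)}
    {t' : T' ⟶ Spec (CommRingCat.of k)} (ψ : SchemeHomOver t' t) :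
    baseChangeSnd c ψ ≫ pullback.snd c t = pullback.snd c t' ≫ ψ.1 :=
  pullback.lift_snd _ _ _

/-- The base change square of two base changes of the curve. -/
theorem isPullback_baseChangeSnd {T T' : Scheme.{u}} {t : T ⟶ Spec (CommRingCat.of k)}
    {t' : T' ⟶ Spec (CommRingCat.of k)} (ψ : SchemeHomOver t' t) :
    IsPullback (baseChangeSnd c ψ) (pullback.snd c t') (pullback.snd c t) ψ.1 := by
  refine IsPullback.of_right ?_ (baseChangeSnd_snd ψ) (IsPullback.of_hasPullback c t)
  rw [baseChangeSnd_fst, ψ.2]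
  exact IsPullback.of_hasPullback c t'

/-- Restrictions along composable morphisms of bases compose. -/
theorem bcPic_bcPic_postComp {X X' T' : Scheme.{u}} {x : X ⟶ Spec (CommRingCat.of k)}
    {x' : X' ⟶ Spec (CommRingCat.of k)} {t' : T' ⟶ Spec (CommRingCat.of k)}
    (φ : SchemeHomOver x x') (ψ : SchemeHomOver t' x) (a : LinePic (pullback c x')) :
    bcPic c ψ (bcPic c φ a) = bcPic c (postComp φ ψ) a :=
  (LinePic.pullback_pullback _ _ a).trans
    (by rw [baseChangeSnd_comp]; rfl)

namespace CurveModel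

variable (M : CurveModel c ε)

/-- The pair of charts of `C_T` over an affine base. -/
@[reducible] def chart {T : Scheme.{u}} (t : T ⟶ Spec (CommRingCat.of k)) [IsAffine T] :
    TwoChart (pullback.snd c t) :=
  M.toTwoChart.baseChange (IsPullback.of_hasPullback c t)

theorem preimage_baseChangeSnd {T T' : Scheme.{u}} {t : T ⟶ Spec (CommRingCat.of k)}
    {t' : T' ⟶ Spec (CommRingCat.of k)} (ψ : SchemeHomOver t' t) (U : C.Opens) :
    baseChangeSnd c ψ ⁻¹ᵁ (pullback.fst c t ⁻¹ᵁ U) = pullback.fst c t' ⁻¹ᵁ U := by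
  rw [← Scheme.Hom.comp_preimage, baseChangeSnd_fst]

/-- The Euler characteristic of a fibre over an affine base. -/
theorem chiAt_bcPic_eq_chiFun {T : Scheme.{u}} [IsAffine T] (t : T ⟶ Spec (CommRingCat.of k))
    (L : LineSys (pullback c t)) {K : Type u} [Field K]
    {v : Spec (CommRingCat.of K) ⟶ Spec (CommRingCat.of k)} (ψ : SchemeHomOver v t)
    (x : Spec (CommRingCat.of K)) :
    M.chiAt v (bcPic c ψ (LinePic.mk L)) = (M.chart t).chiFun L (ψ.1 x) := by
  have h := ((M.chart t).chi_fibre L (isPullback_baseChangeSnd ψ) (isField_Γ_spec K) x).2.2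
  rw [preimage_baseChangeSnd, preimage_baseChangeSnd] at h
  exact h

/-- Finiteness of the cohomology over a field. -/
theorem finite_sec_cechH1 {K : Type u} [Field K]
    (v : Spec (CommRingCat.of K) ⟶ Spec (CommRingCat.of k)) (L : LineSys (pullback c v)) :
    Module.Finite Γ(Spec (CommRingCat.of K), ⊤) (SecOver (pullback.snd c v) L ⊤) ∧
      Module.Finite Γ(Spec (CommRingCat.of K), ⊤)
        (CechH1 (pullback.snd c v) L (M.V0 v) (M.V1 v)) := by
  letI := (isField_Γ_spec K).toField
  have hp := (M.chart v).isPerfect_cechD L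
  obtain ⟨hsurj, hfin, -⟩ := hp.exists_gen.choose_spec.choose_spec
  haveI : Module.Finite Γ(Spec (CommRingCat.of K), ⊤) (LinearMap.ker
      ((cechD (pullback.snd c v) L (M.chart v).U0 (M.chart v).U1).coprod hp.gen)) := hfin
  obtain ⟨h1, h2, -⟩ := finrank_ker_sub_finrank_coker _ hp.gen hsurj
  exact ⟨Module.Finite.equiv ((M.chart v).globalEquiv L).symm, h2⟩

/-- On every family the Euler characteristic of the fibres is locally constant. -/
theorem chiLocConstProperty : M.ChiLocConstProperty := by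
  intro T t a
  induction a using Quotient.inductionOn with
  | _ L =>
  have hex : ∀ x : T, ∃ (W : T.Opens) (_ : IsAffineOpen W), x ∈ W := fun x => by
    obtain ⟨W, hW, hx, -⟩ := exists_isAffineOpen_mem_and_subset (U := ⊤) (x := x) trivial
    exact ⟨W, hW, hx⟩
  let f : T → ℤ := fun x =>
    M.chiAt (T.fromSpecResidueField x ≫ t)
      (bcPic c (⟨T.fromSpecResidueField x, rfl⟩ :
        SchemeHomOver (T.fromSpecResidueField x ≫ t) t) (LinePic.mk L))
  have key : ∀ (W : T.Opens) [IsAffine W.toScheme],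
      ∃ g : W.toScheme → ℤ, IsLocallyConstant g ∧ ∀ (K : Type u) [Field K]
        (s : Spec (CommRingCat.of K) ⟶ T) (z : Spec (CommRingCat.of K)) (hz : s z ∈ W),
        M.chiAt (s ≫ t) (bcPic c (⟨s, rfl⟩ : SchemeHomOver (s ≫ t) t) (LinePic.mk L)) =
          g ⟨s z, hz⟩ := by
    intro W _
    let φ : SchemeHomOver (W.ι ≫ t) t := ⟨W.ι, rfl⟩
    refine ⟨(M.chart (W.ι ≫ t)).chiFun (L.pull (baseChangeSnd c φ)),
      (M.chart (W.ι ≫ t)).isLocallyConstant_chiFun _, fun K _ s z hz => ?_⟩
    have hrange : Set.range s ⊆ Set.range W.ι := by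
      rintro _ ⟨z', rfl⟩
      rw [Scheme.Opens.range_ι, show z' = z from Subsingleton.elim (α := PrimeSpectrum K) _ _]
      exact hz
    let s' := IsOpenImmersion.lift W.ι s hrange
    have hs' : s' ≫ W.ι = s := IsOpenImmersion.lift_fac _ _ _
    let ψ : SchemeHomOver (s ≫ t) (W.ι ≫ t) := ⟨s', by rw [← Category.assoc, hs']⟩
    have e : postComp φ ψ = (⟨s, rfl⟩ : SchemeHomOver (s ≫ t) t) := Subtype.ext hs'
    rw [← e, ← bcPic_bcPic_postComp]
    refine (M.chiAt_bcPic_eq_chiFun (W.ι ≫ t) _ ψ z).trans (congrArg _ ?_)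
    refine W.ι.injective ?_
    rw [← Scheme.Hom.comp_apply]
    exact (congrArg (fun g : Spec (CommRingCat.of K) ⟶ T => g z) hs').trans rfl
  refine ⟨f, ?_, fun K _ s => ?_⟩
  · rw [IsLocallyConstant.iff_exists_open]
    intro x
    obtain ⟨W, hW, hx⟩ := hex x
    haveI : IsAffine W.toScheme := hW
    obtain ⟨g, hg, hgf⟩ := key W
    have hfg : ∀ (y : T) (hy : y ∈ W), f y = g ⟨y, hy⟩ := fun y hy => by
      have e := T.fromSpecResidueField_apply y (IsLocalRing.closedPoint (T.residueField y))
      refine (hgf (T.residueField y) (T.fromSpecResidueField y)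
        (IsLocalRing.closedPoint (T.residueField y)) (by rwa [e])).trans (congrArg g ?_)
      exact Subtype.ext e
    obtain ⟨U, hU, hxU, hconst⟩ := (IsLocallyConstant.iff_exists_open g).mp hg ⟨x, hx⟩
    refine ⟨W.ι '' U, W.ι.isOpenEmbedding.isOpenMap U hU, ⟨⟨x, hx⟩, hxU, rfl⟩, ?_⟩
    rintro _ ⟨⟨y, hy⟩, hyU, rfl⟩
    show f y = f x
    rw [hfg y hy, hfg x hx]
    exact hconst _ hyU
  · obtain ⟨W, hW, hx⟩ := hex (s (IsLocalRing.closedPoint K))
    haveI : IsAffine W.toScheme := hW
    obtain ⟨g, hg, hgf⟩ := key W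
    set y := s (IsLocalRing.closedPoint K)
    have e := T.fromSpecResidueField_apply y (IsLocalRing.closedPoint (T.residueField y))
    refine (hgf K s (IsLocalRing.closedPoint K) hx).trans ?_
    refine Eq.trans (congrArg g ?_) (hgf (T.residueField y) (T.fromSpecResidueField y)
      (IsLocalRing.closedPoint (T.residueField y)) (by rwa [e])).symm
    exact Subtype.ext e.symm

variable [IsAlgClosed k] [IsIntegral C] [IsProper c]

/-- The trivial class has one dimensional sections. -/
theorem h0_one (M : CurveModel c ε) {K : Type u} [Field K]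
    (v : Spec (CommRingCat.of K) ⟶ Spec (CommRingCat.of k)) :
    h0 (pullback.snd c v) (1 : LinePic (pullback c v)) = 1 := by
  letI := (isField_Γ_spec K).toField
  rw [LinePic.one_def, h0_mk]
  letI : Module Γ(Spec (CommRingCat.of K), ⊤) Γ(pullback c v, ⊤) :=
    Module.compHom Γ(pullback c v, ⊤) (baseHom (pullback.snd c v) ⊤)
  rw [(secOverTriv (pullback.snd c v) (⊤ : (pullback c v).Opens)).finrank_eq]
  let e : Γ(Spec (CommRingCat.of K), ⊤) →ₗ[Γ(Spec (CommRingCat.of K), ⊤)] Γ(pullback c v, ⊤) :=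
    LinearMap.toSpanSingleton _ _ 1
  have he : ⇑e = baseHom (pullback.snd c v) ⊤ := funext fun r => mul_one _
  have hb : Function.Bijective (baseHom (pullback.snd c v) ⊤) := by
    have h : baseHom (pullback.snd c v) ⊤ = ((pullback.snd c v).app ⊤).hom :=
      congrArg CommRingCat.Hom.hom (Scheme.Hom.appLE_eq_app (pullback.snd c v))
    rw [h]
    exact M.globalUnits v
  rw [← (LinearEquiv.ofBijective e (he ▸ hb)).finrank_eq, Module.finrank_self]

/-- Invariants of the trivial class. -/
theorem unitClassProperty : M.UnitClassProperty := by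
  have hone : ∀ (K : Type u) [Field K] (v : Spec (CommRingCat.of K) ⟶ Spec (CommRingCat.of k)),
      M.chiAt v 1 = (M.chart (𝟙 (Spec (CommRingCat.of k)))).chiFun (LineSys.triv _)
        (v (IsLocalRing.closedPoint K)) := fun K _ v => by
    have h := M.chiAt_bcPic_eq_chiFun (𝟙 _) (LineSys.triv _)
      (⟨v, Category.comp_id v⟩ : SchemeHomOver v (𝟙 (Spec (CommRingCat.of k))))
      (IsLocalRing.closedPoint K)
    rwa [← LinePic.one_def, map_one] at h
  refine ⟨?_, fun K _ t => ⟨?_, M.h0_one t⟩⟩
  · rw [chiOne, chiAt, chi, M.h0_one, Nat.cast_one, genus]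
  · rw [chiOne, hone K t, hone k (𝟙 _)]
    exact congrArg _ (Subsingleton.elim (α := PrimeSpectrum k) _ _)

end CurveModel

end Fermat.Agent.Jacobian
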