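/-
The open locus of the base over which the first cohomology of the fibres vanishes.
-/
import Fermat.Agent.Jacobian.Cohom.Properties

set_option autoImplicit false
set_option linter.unusedVariables false
set_option linter.style.haveILetI false

universe u

open CategoryTheory CategoryTheory.Limits AlgebraicGeometry AlgebraicGeometry.RelPicard
  TopologicalSpace Opposite TensorProduct NeronModelInfra

noncomputable section

namespace Fermat.Agent.Jacobian

/-- A surjective perfect complex: the rank of the kernel is the Euler characteristic. -/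
theorem IsPerfect.rankAtStalk_ker {B P Q : Type u} [CommRing B] [AddCommGroup P] [Module B P]
    [AddCommGroup Q] [Module B Q] [Module.Projective B P] {d : P →ₗ[B] Q} (hd : IsPerfect d)
    (hs : Function.Surjective d) (P₀ : PrimeSpectrum B) :
    (Module.rankAtStalk (LinearMap.ker d) P₀ : ℤ) = hd.chiFun P₀ := by
  haveI := hd.proj
  obtain ⟨hsurj, hfin, hproj⟩ := hd.exists_gen.choose_spec.choose_spec
  obtain ⟨hkf, hkp⟩ := hd.ker_of_surjective hs
  haveI : Module.Finite B (LinearMap.ker d) := hkf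
  haveI : Module.Projective B (LinearMap.ker d) := hkp
  haveI : Nontrivial B := ⟨0, 1, fun h => P₀.isPrime.ne_top
    ((Ideal.eq_top_iff_one _).mpr (by rw [← h]; exact zero_mem _))⟩
  obtain ⟨σ, hσ⟩ := Module.projective_lifting_property d LinearMap.id hs
  have hds : ∀ q, d (σ q) = q := fun q => LinearMap.congr_fun hσ q
  let e : LinearMap.ker (d.coprod hd.gen) ≃ₗ[B] LinearMap.ker d × (Fin hd.gens → B) :=
    { toFun := fun z => (⟨z.1.1 + σ (hd.gen z.1.2), by
        rw [LinearMap.mem_ker, map_add, hds]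
        exact (LinearMap.coprod_apply d hd.gen z.1).symm.trans z.2⟩, z.1.2)
      invFun := fun w => ⟨(w.1.1 - σ (hd.gen w.2), w.2), by
        simp [hds, LinearMap.mem_ker.mp w.1.2]⟩
      map_add' := fun z z' => by
        ext <;> simp only [Submodule.coe_add, Prod.fst_add, Prod.snd_add, map_add]; abel
      map_smul' := fun r z => by
        ext <;> simp [smul_add]
      left_inv := fun z => by ext <;> simp
      right_inv := fun w => by ext <;> simp }
  have h1 : Module.rankAtStalk (LinearMap.ker (d.coprod hd.gen)) P₀ =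
      Module.rankAtStalk (LinearMap.ker d) P₀ + hd.gens := by
    rw [Module.rankAtStalk_eq_of_equiv e, Module.rankAtStalk_prod, Pi.add_apply,
      Module.rankAtStalk_eq_finrank_of_free (R := B) (M := Fin hd.gens → B)]
    simp
  rw [IsPerfect.chiFun, h1]
  push_cast
  ring

namespace TwoChart

variable {X T : Scheme.{u}} {p : X ⟶ T} [IsAffine T] (M : TwoChart p) (L : LineSys X)

/-- Without first cohomology the rank of the sections is the Euler characteristic. -/
theorem rankAtStalk_sec (h : Function.Surjective (cechD p L M.U0 M.U1)) (t : T) :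
    (Module.rankAtStalk (SecOver p L ⊤) (T.isoSpec.hom t) : ℤ) = M.chiFun L t := by
  haveI := M.projective_sec0 L
  haveI := M.projective_sec1 L
  obtain ⟨hf, hp⟩ := M.finite_projective_sec L h
  rw [Module.rankAtStalk_eq_of_equiv (M.globalEquiv L)]
  exact (M.isPerfect_cechD L).rankAtStalk_ker h _

end TwoChart

variable {k : Type u} [Field k] {C : Scheme.{u}} {c : C ⟶ Spec (CommRingCat.of k)}
  {ε : SchemeHomOver (𝟙 (Spec (CommRingCat.of k))) c}

namespace CurveModel

variable (M : CurveModel c ε)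

/-- Vanishing of the first cohomology of a fibre over an affine base. -/
theorem h1_bcPic_eq_zero_iff {T : Scheme.{u}} [IsAffine T] (t : T ⟶ Spec (CommRingCat.of k))
    (L : LineSys (pullback c t)) {K : Type u} [Field K]
    {v : Spec (CommRingCat.of K) ⟶ Spec (CommRingCat.of k)} (ψ : SchemeHomOver v t)
    (x : Spec (CommRingCat.of K)) :
    h1 (pullback.snd c v) (M.V0 v) (M.V1 v) (bcPic c ψ (LinePic.mk L)) = 0 ↔
      ψ.1 x ∈ (M.chart t).vanishingLocus L := by
  have h := (M.chart t).h1_fibre_eq_zero_iff L (isPullback_baseChangeSnd ψ) (isField_Γ_spec K) x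
  rw [preimage_baseChangeSnd, preimage_baseChangeSnd] at h
  exact h

/-- The locus where the first cohomology of the fibre vanishes is open. -/
theorem exists_open_h1_eq_zero {T : Scheme.{u}} (t : T ⟶ Spec (CommRingCat.of k))
    (a : LinePic (pullback c t)) :
    ∃ U : T.Opens, ∀ (K : Type u) [Field K] (s : Spec (CommRingCat.of K) ⟶ T)
      (z : Spec (CommRingCat.of K)),
      h1 (pullback.snd c (s ≫ t)) (M.V0 (s ≫ t)) (M.V1 (s ≫ t))
          (bcPic c (⟨s, rfl⟩ : SchemeHomOver (s ≫ t) t) a) = 0 ↔ s z ∈ U := by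
  induction a using Quotient.inductionOn with
  | _ L =>
  have key : ∀ W : {W : T.Opens // IsAffineOpen W}, ∃ U : T.Opens, U ≤ W.1 ∧
      ∀ (K : Type u) [Field K] (s : Spec (CommRingCat.of K) ⟶ T) (z : Spec (CommRingCat.of K)),
        s z ∈ W.1 → (h1 (pullback.snd c (s ≫ t)) (M.V0 (s ≫ t)) (M.V1 (s ≫ t))
          (bcPic c (⟨s, rfl⟩ : SchemeHomOver (s ≫ t) t) (LinePic.mk L)) = 0 ↔ s z ∈ U) := by
    intro W
    haveI : IsAffine W.1.toScheme := W.2
    let φ : SchemeHomOver (W.1.ι ≫ t) t := ⟨W.1.ι, rfl⟩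
    let V : W.1.toScheme.Opens :=
      ⟨(M.chart (W.1.ι ≫ t)).vanishingLocus (L.pull (baseChangeSnd c φ)),
        (M.chart (W.1.ι ≫ t)).isOpen_vanishingLocus _⟩
    refine ⟨W.1.ι ''ᵁ V, W.1.ι_image_le V, fun K _ s z hz => ?_⟩
    have hrange : Set.range s ⊆ Set.range W.1.ι := by
      rintro _ ⟨z', rfl⟩
      rw [Scheme.Opens.range_ι, show z' = z from Subsingleton.elim (α := PrimeSpectrum K) _ _]
      exact hz
    let s' := IsOpenImmersion.lift W.1.ι s hrange
    have hs' : s' ≫ W.1.ι = s := IsOpenImmersion.lift_fac _ _ _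
    let ψ : SchemeHomOver (s ≫ t) (W.1.ι ≫ t) := ⟨s', by rw [← Category.assoc, hs']⟩
    have e : postComp φ ψ = (⟨s, rfl⟩ : SchemeHomOver (s ≫ t) t) := Subtype.ext hs'
    have hsz : W.1.ι (s' z) = s z := by
      rw [← Scheme.Hom.comp_apply]
      exact congrArg (fun g : Spec (CommRingCat.of K) ⟶ T => g z) hs'
    rw [← e, ← bcPic_bcPic_postComp]
    refine (M.h1_bcPic_eq_zero_iff (W.1.ι ≫ t) _ ψ z).trans ⟨fun h => ⟨s' z, h, hsz⟩, ?_⟩
    rintro ⟨w, hw, hwz⟩
    obtain rfl : w = s' z := W.1.ι.injective (hwz.trans hsz.symm)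
    exact hw
  choose U hUW hU using key
  refine ⟨iSup U, fun K _ s z => ⟨fun h => ?_, fun h => ?_⟩⟩
  · obtain ⟨W, hW, hx, -⟩ := exists_isAffineOpen_mem_and_subset (U := ⊤) (x := s z) trivial
    exact Opens.mem_iSup.mpr ⟨⟨W, hW⟩, (hU ⟨W, hW⟩ K s z hx).mp h⟩
  · obtain ⟨W, hW⟩ := Opens.mem_iSup.mp h
    exact (hU W K s z (hUW W hW)).mpr hW

/-- No first cohomology on the geometric fibres: none over an affine base. -/
theorem surjective_cechD_of_h1_fibres {T : Scheme.{u}} [IsAffine T]
    (t : T ⟶ Spec (CommRingCat.of k)) (L : LineSys (pullback c t))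
    (h : ∀ (K : Type u) [Field K] [IsAlgClosed K] (s : Spec (CommRingCat.of K) ⟶ T),
      h1 (pullback.snd c (s ≫ t)) (M.V0 (s ≫ t)) (M.V1 (s ≫ t))
        (bcPic c (⟨s, rfl⟩ : SchemeHomOver (s ≫ t) t) (LinePic.mk L)) = 0) :
    Function.Surjective (cechD (pullback.snd c t) L (M.V0 t) (M.V1 t)) := by
  refine (M.chart t).surjective_cechD_of_vanishingLocus L (Set.eq_univ_of_forall fun x => ?_)
  let K : Type u := AlgebraicClosure (T.residueField x)
  let s : Spec (CommRingCat.of K) ⟶ T :=
    Spec.map (CommRingCat.ofHom (algebraMap (T.residueField x) K)) ≫ T.fromSpecResidueField x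
  have hx : s (IsLocalRing.closedPoint K) = x := by
    exact (Scheme.Hom.comp_apply _ _ _).trans (T.fromSpecResidueField_apply x _)
  rw [← hx]
  exact (M.h1_bcPic_eq_zero_iff t L (⟨s, rfl⟩ : SchemeHomOver (s ≫ t) t) _).mp (h K s)

end CurveModel

end Fermat.Agent.Jacobian
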